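import Fermat.Agent.Corollaries.Baker.Param

/-!
# Baker's theorem: the extrapolation
-/

set_option autoImplicit false

open Finset NumberField

namespace Fermat.Agent.Cor.Baker

open Fermat.Agent.Cor.GS (exists_siegel)

theorem one_le_bA {N L k S : ℕ} {c : ℝ} (hc : 1 ≤ c) (hL : 1 ≤ L) (hS : 1 ≤ S) :
    1 ≤ bA N L k S c := by
  have hLR : (1 : ℝ) ≤ L := by exact_mod_cast hL
  have hLc : 1 ≤ (L : ℝ) * c := one_le_mul_of_one_le_of_one_le hLR hc
  have hSR : (1 : ℝ) ≤ S := by exact_mod_cast hS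
  unfold bA
  have h1 : 1 ≤ c ^ ((N + 1) * k + (N + 1) * L * S) := one_le_pow₀ hc
  have h2 : 1 ≤ ((L : ℝ) * c) ^ ((N + 1) * k) := one_le_pow₀ hLc
  have h3 : 1 ≤ (S : ℝ) ^ L := one_le_pow₀ hSR
  have h4 : 1 ≤ c ^ ((N + 1) * L * S) := one_le_pow₀ hc
  exact one_le_mul_of_one_le_of_one_le h1
    (one_le_mul_of_one_le_of_one_le (one_le_mul_of_one_le_of_one_le h2 h3) h4)

/-- there is no counterexample (with the algebraic piece `VanishStmt` as a hypothesis) -/
theorem Dat.false_of (hV : VanishStmt) {N : ℕ} {K : Type} [Field K] [NumberField K]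
    (D : Dat N K) : False := by
  obtain ⟨d, c, hd0, hc, hd, i1, i2, i3, i4, hβ₀, hβ, hα', hα, hl⟩ := D.exists_den
  obtain ⟨C, hC1, hC⟩ := exists_siegel K
  obtain ⟨X, L, S₀, k, hX, hL, hS₀, hk, hLk, hLT, hLS, hineq⟩ :=
    exists_param N (Module.finrank ℚ K) hc hC1
  set Js : ℕ := 4 * (N + 2) * (N + 1) + 1 with hJs
  obtain ⟨p, hp0, hp, hpb⟩ := Dat.exists_aux hc hd hd0 i1 i2 i3 i4 hβ₀ hβ hα' hα hC
    (k := k) (S := S₀) hk hS₀ hLk
  have hP0 : 0 ≤ C ^ 2 * (L : ℝ) ^ (N + 2) * bA N L k S₀ c := by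
    have := one_le_bA (N := N) (k := k) hc hL hS₀
    positivity
  have hmain : ∀ J ≤ Js, ∀ m : ℕ × (Fin N → ℕ), ord m < k / 2 ^ J → ∀ s : ℕ, 1 ≤ s →
      s ≤ S₀ * X ^ J → D.F (fun x => algebraMap (𝓞 K) K (p x)) m s = 0 := by
    intro J
    induction J with
    | zero =>
      intro _ m hm s hs1 hs2
      exact hp m (by simpa using hm) s hs1 (by simpa using hs2)
    | succ J ih =>
      intro hJ
      have hXJ : 1 ≤ X ^ (J + 1) := Nat.one_le_iff_ne_zero.mpr (by positivity)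
      refine Dat.step hc hd hd0 i1 i2 i3 i4 hβ₀ hβ hα' hα hl hP0 hpb hL (T := k / 2 ^ J)
        (S := S₀ * X ^ J) (X := X) (k := k) ?_ (Nat.div_le_self _ _) ?_ (by omega) ?_
        (ih (by omega)) (hineq J (by omega))
      · rw [pow_succ, ← Nat.div_div_eq_div_mul]
        exact Nat.mul_div_le _ _
      · exact Nat.mul_le_mul_left _ (Nat.pow_le_pow_right (by omega) (Nat.le_succ J))
      · exact Nat.mul_pos hS₀ hXJ
  have h1 := hV N K D L (S₀ * X ^ Js) (k / 2 ^ Js) hL hLS hLT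
    (fun x => algebraMap (𝓞 K) K (p x)) (hmain Js le_rfl)
  apply hp0
  funext x
  have h2 := congrFun h1 x
  exact (FaithfulSMul.algebraMap_injective (𝓞 K) K) (by rw [Pi.zero_apply, map_zero]; exact h2)

end Fermat.Agent.Cor.Baker
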