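import Mathlib

/-!
# Baker's theorem on linear forms in logarithms: definitions

`l 0, ..., l (N - 1), l'` logarithms of algebraic numbers with `l' = β₀ + ∑ β i * l i`.
-/

set_option autoImplicit false

open Finset

namespace Fermat.Agent.Cor.Baker

/-- a counterexample to Baker's theorem -/
structure Dat (N : ℕ) (K : Type) [Field K] [NumberField K] where
  σ : K →+* ℂ
  l : Fin N → ℂ
  l' : ℂ
  α : Fin N → K
  α' : K
  β₀ : K
  β : Fin N → K
  hα : ∀ i, σ (α i) = Complex.exp (l i)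
  hα' : σ α' = Complex.exp l'
  hl' : l' = σ β₀ + ∑ i, σ (β i) * l i
  hind : ∀ (a : Fin N → ℤ) (b : ℤ), (b : ℂ) * l' + ∑ i, (a i : ℂ) * l i = 0 → a = 0 ∧ b = 0

/-- the indices `(λ₀, λ, λ')` of the coefficients -/
abbrev Idx (N L : ℕ) : Type := Fin L × (Fin N → Fin L) × Fin L

/-- the order of a multi-index -/
def ord {N : ℕ} (m : ℕ × (Fin N → ℕ)) : ℕ := m.1 + ∑ i, m.2 i

variable {K : Type} [Field K]

/-- `(d/dX + b) ^ m X ^ e` -/
noncomputable def qp (b : K) (e : ℕ) : ℕ → Polynomial K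
  | 0 => Polynomial.X ^ e
  | m + 1 => Polynomial.derivative (qp b e m) + Polynomial.C b * qp b e m

variable [NumberField K] {N L : ℕ}

namespace Dat

variable (D : Dat N K)

/-- `γ₀ = λ' β₀` -/
def γ₀ (x : Idx N L) : K := ((x.2.2 : ℕ) : K) * D.β₀

/-- `γ i = λ i + λ' β i` -/
def γ (x : Idx N L) (i : Fin N) : K := ((x.2.1 i : ℕ) : K) + ((x.2.2 : ℕ) : K) * D.β i

/-- `α' ^ λ' ∏ α i ^ λ i` -/
def A (x : Idx N L) : K := D.α' ^ (x.2.2 : ℕ) * ∏ i, D.α i ^ (x.2.1 i : ℕ)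

/-- `λ' l' + ∑ λ i l i` -/
def ω (x : Idx N L) : ℂ := ((x.2.2 : ℕ) : ℂ) * D.l' + ∑ i, ((x.2.1 i : ℕ) : ℂ) * D.l i

/-- the value at the natural number `s` of the derivative of order `m` -/
noncomputable def F (p : Idx N L → K) (m : ℕ × (Fin N → ℕ)) (s : ℕ) : K :=
  ∑ x, p x * ((qp (D.γ₀ x) x.1 m.1).eval (s : K) * (∏ i, D.γ x i ^ m.2 i) * D.A x ^ s)

/-- the function of one complex variable -/
noncomputable def f (p : Idx N L → K) (m : ℕ × (Fin N → ℕ)) (z : ℂ) : ℂ :=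
  ∑ x, D.σ (p x) * (((qp (D.γ₀ x) x.1 m.1).map D.σ).eval z * (∏ i, D.σ (D.γ x i) ^ m.2 i) *
    Complex.exp (D.ω x * z))

end Dat

/-- **(B1)** a function with sufficiently many zeros is zero -/
def VanishStmt : Prop := ∀ (N : ℕ) (K : Type) [Field K] [NumberField K] (D : Dat N K) (L S T : ℕ),
  0 < L → L ^ (N + 2) ≤ S → L ≤ T → ∀ p : Idx N L → K,
    (∀ m : ℕ × (Fin N → ℕ), ord m < T → ∀ s : ℕ, 1 ≤ s → s ≤ S → D.F p m s = 0) → p = 0

end Fermat.Agent.Cor.Baker
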