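import Fermat.Agent.Corollaries.Baker.Defs
import Fermat.Agent.Corollaries.GS.Func

/-!
# Baker's theorem: estimates and the differential equation
-/

set_option autoImplicit false

open Finset NumberField

namespace Fermat.Agent.Cor.Baker

open Fermat.Agent.Cor.GS (house_nonneg' house_pow_le_pow house_mul_le_mul house_sum_le)

section Poly

variable {K : Type} [Field K]

theorem qp_natDegree_le (b : K) (e m : ℕ) : (qp b e m).natDegree ≤ e := by
  induction m with
  | zero =>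
    rw [qp]
    exact Polynomial.natDegree_X_pow_le e
  | succ m ih =>
    rw [qp]
    refine (Polynomial.natDegree_add_le _ _).trans (max_le ?_ ?_)
    · exact ((Polynomial.natDegree_derivative_le _).trans (Nat.sub_le _ _)).trans ih
    · exact (Polynomial.natDegree_C_mul_le _ _).trans ih

variable [NumberField K]

/-- the sum of the houses of the coefficients -/
noncomputable def nrm (e : ℕ) (P : Polynomial K) : ℝ := ∑ k ∈ range (e + 1), house (P.coeff k)

theorem nrm_nonneg (e : ℕ) (P : Polynomial K) : 0 ≤ nrm e P :=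
  sum_nonneg fun _ _ => house_nonneg' _

theorem house_one' : house (1 : K) = 1 := by
  have := house_intCast (K := K) 1
  simpa using this

theorem house_zero' : house (0 : K) = 0 := by
  have := house_intCast (K := K) 0
  simpa using this

theorem nrm_qp_le (b : K) (e m : ℕ) : nrm e (qp b e m) ≤ (e + house b) ^ m := by
  induction m with
  | zero =>
    rw [qp, pow_zero, nrm]
    have h1 : ∀ k ∈ range (e + 1), k ≠ e → house ((Polynomial.X ^ e : Polynomial K).coeff k) = 0 := by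
      intro k _ hk
      rw [Polynomial.coeff_X_pow, if_neg hk, house_zero']
    rw [sum_eq_single_of_mem e (by simp) h1, Polynomial.coeff_X_pow, if_pos rfl, house_one']
  | succ m ih =>
    have h1 : ∀ k ∈ range (e + 1), house ((qp b e (m + 1)).coeff k) ≤
        (k + 1) * house ((qp b e m).coeff (k + 1)) + house b * house ((qp b e m).coeff k) := by
      intro k _
      rw [qp, Polynomial.coeff_add, Polynomial.coeff_derivative, Polynomial.coeff_C_mul]
      refine (house_add_le _ _).trans (add_le_add ?_ (house_mul_le _ _))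
      have h2 : (qp b e m).coeff (k + 1) * ((k : K) + 1) =
          ((k + 1 : ℕ) : K) * (qp b e m).coeff (k + 1) := by
        push_cast
        ring
      rw [h2, house_nat_mul]
      push_cast
      exact le_refl _
    have h2 : ∑ k ∈ range (e + 1), ((k : ℝ) + 1) * house ((qp b e m).coeff (k + 1)) ≤
        e * nrm e (qp b e m) := by
      have h3 : ∑ k ∈ range (e + 1), ((k : ℝ) + 1) * house ((qp b e m).coeff (k + 1)) =
          ∑ k ∈ range (e + 2), (k : ℝ) * house ((qp b e m).coeff k) := by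
        rw [sum_range_succ' _ (e + 1)]
        simp
      rw [h3, sum_range_succ]
      have h4 : (qp b e m).coeff (e + 1) = 0 :=
        Polynomial.coeff_eq_zero_of_natDegree_lt
          ((qp_natDegree_le b e m).trans_lt (Nat.lt_succ_self e))
      rw [h4, house_zero', mul_zero, add_zero, nrm, mul_sum]
      refine sum_le_sum fun k hk => ?_
      refine mul_le_mul_of_nonneg_right ?_ (house_nonneg' _)
      have := mem_range.mp hk
      exact_mod_cast (by omega : k ≤ e)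
    calc nrm e (qp b e (m + 1)) ≤ ∑ k ∈ range (e + 1),
        ((k + 1) * house ((qp b e m).coeff (k + 1)) + house b * house ((qp b e m).coeff k)) :=
          sum_le_sum h1
      _ ≤ e * nrm e (qp b e m) + house b * nrm e (qp b e m) := by
          rw [sum_add_distrib, ← mul_sum]
          exact add_le_add h2 (le_refl _)
      _ = nrm e (qp b e m) * (e + house b) := by ring
      _ ≤ (e + house b) ^ m * (e + house b) :=
          mul_le_mul_of_nonneg_right ih (add_nonneg (Nat.cast_nonneg _) (house_nonneg' _))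
      _ = (e + house b) ^ (m + 1) := (pow_succ _ _).symm

theorem house_eval_le {P : Polynomial K} {e s : ℕ} (hP : P.natDegree ≤ e) (hs : 1 ≤ s) :
    house (P.eval (s : K)) ≤ nrm e P * (s : ℝ) ^ e := by
  rw [Polynomial.eval_eq_sum_range' (Nat.lt_succ_of_le hP), nrm, sum_mul]
  refine (house_sum_le_sum_house _ _).trans (sum_le_sum fun k hk => ?_)
  have h1 : P.coeff k * (s : K) ^ k = ((s ^ k : ℕ) : K) * P.coeff k := by
    push_cast
    ring
  rw [h1, house_nat_mul, mul_comm]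
  refine mul_le_mul_of_nonneg_left ?_ (house_nonneg' _)
  have := mem_range.mp hk
  exact_mod_cast Nat.pow_le_pow_right hs (by omega)

theorem norm_eval_map_le {P : Polynomial K} {e : ℕ} (hP : P.natDegree ≤ e) (σ : K →+* ℂ) {z : ℂ}
    {R : ℝ} (hR : 1 ≤ R) (hz : ‖z‖ ≤ R) : ‖(P.map σ).eval z‖ ≤ nrm e P * R ^ e := by
  have hP' : (P.map σ).natDegree ≤ e := Polynomial.natDegree_map_le.trans hP
  rw [Polynomial.eval_eq_sum_range' (Nat.lt_succ_of_le hP'), nrm, sum_mul]
  refine (norm_sum_le _ _).trans (sum_le_sum fun k hk => ?_)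
  rw [norm_mul, norm_pow, Polynomial.coeff_map]
  refine mul_le_mul (norm_embedding_le_house _ _) ?_ (by positivity) (house_nonneg' _)
  have := mem_range.mp hk
  exact (pow_le_pow_left₀ (norm_nonneg _) hz k).trans (pow_le_pow_right₀ hR (by omega))

omit [NumberField K] in
theorem isIntegral_coeff_qp {d : ℤ} {b : K} (hb : IsIntegral ℤ ((d : K) * b)) (e m k : ℕ) :
    IsIntegral ℤ ((d : K) ^ m * (qp b e m).coeff k) := by
  have hd : IsIntegral ℤ (d : K) := isIntegral_algebraMap (R := ℤ) (x := d)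
  induction m generalizing k with
  | zero =>
    rw [qp, Polynomial.coeff_X_pow, pow_zero, one_mul]
    split_ifs
    · exact isIntegral_one
    · exact isIntegral_zero
  | succ m ih =>
    rw [qp, Polynomial.coeff_add, Polynomial.coeff_derivative, Polynomial.coeff_C_mul]
    have h1 : (d : K) ^ (m + 1) * ((qp b e m).coeff (k + 1) * ((k : K) + 1) +
        b * (qp b e m).coeff k) = (d : K) * ((k + 1 : ℕ) : K) *
        ((d : K) ^ m * (qp b e m).coeff (k + 1)) +
        ((d : K) * b) * ((d : K) ^ m * (qp b e m).coeff k) := by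
      push_cast
      ring
    rw [h1]
    have hk : IsIntegral ℤ (((k + 1 : ℕ) : K)) := by
      exact_mod_cast isIntegral_algebraMap (R := ℤ) (A := K) (x := ((k + 1 : ℕ) : ℤ))
    exact ((hd.mul hk).mul (ih (k + 1))).add (hb.mul (ih k))

omit [NumberField K] in
theorem isIntegral_eval_qp {d : ℤ} {b : K} (hb : IsIntegral ℤ ((d : K) * b)) (e m s : ℕ) :
    IsIntegral ℤ ((d : K) ^ m * (qp b e m).eval (s : K)) := by
  rw [Polynomial.eval_eq_sum_range, mul_sum]
  refine IsIntegral.sum _ fun k _ => ?_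
  rw [← mul_assoc]
  have hs : IsIntegral ℤ ((s : K)) := by
    exact_mod_cast isIntegral_algebraMap (R := ℤ) (A := K) (x := (s : ℤ))
  exact (isIntegral_coeff_qp hb e m k).mul (hs.pow k)

end Poly

namespace Dat

variable {K : Type} [Field K] [NumberField K] {N L : ℕ} (D : Dat N K)

/-- the entries -/
noncomputable def ent (x : Idx N L) (m : ℕ × (Fin N → ℕ)) (s : ℕ) : K :=
  (qp (D.γ₀ x) x.1 m.1).eval (s : K) * (∏ i, D.γ x i ^ m.2 i) * D.A x ^ s

theorem F_eq (p : Idx N L → K) (m : ℕ × (Fin N → ℕ)) (s : ℕ) :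
    D.F p m s = ∑ x, p x * D.ent x m s := rfl

/-- common denominator and common bound -/
theorem exists_den : ∃ (d : ℤ) (c : ℝ), d ≠ 0 ∧ 1 ≤ c ∧ |(d : ℝ)| ≤ c ∧
    IsIntegral ℤ ((d : K) * D.β₀) ∧ (∀ i, IsIntegral ℤ ((d : K) * D.β i)) ∧
    IsIntegral ℤ ((d : K) * D.α') ∧ (∀ i, IsIntegral ℤ ((d : K) * D.α i)) ∧
    1 + house D.β₀ ≤ c ∧ (∀ i, 1 + house (D.β i) ≤ c) ∧ house D.α' ≤ c ∧
    (∀ i, house (D.α i) ≤ c) ∧ ‖D.l'‖ + ∑ i, ‖D.l i‖ ≤ c := by
  classical
  obtain ⟨d, hd, h⟩ := exists_integral_multiples ℤ ℚ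
    (({D.β₀, D.α'} : Finset K) ∪ univ.image D.β ∪ univ.image D.α)
  have hs : ∀ x : K, d • x = (d : K) * x := fun x => zsmul_eq_mul x d
  refine ⟨d, 1 + |(d : ℝ)| + house D.β₀ + ∑ i, house (D.β i) + house D.α' +
    ∑ i, house (D.α i) + (‖D.l'‖ + ∑ i, ‖D.l i‖), hd, ?_, ?_, ?_, ?_, ?_, ?_, ?_, ?_, ?_, ?_, ?_⟩
  all_goals
    have n1 := house_nonneg' D.β₀
    have n2 := house_nonneg' D.α'
    have n3 : 0 ≤ ∑ i, house (D.β i) := sum_nonneg fun i _ => house_nonneg' _
    have n4 : 0 ≤ ∑ i, house (D.α i) := sum_nonneg fun i _ => house_nonneg' _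
    have n5 : 0 ≤ ∑ i, ‖D.l i‖ := sum_nonneg fun i _ => norm_nonneg _
    have n6 := norm_nonneg D.l'
    have n7 := abs_nonneg (d : ℝ)
  · linarith
  · linarith
  · rw [← hs]
    exact h _ (by simp)
  · intro i
    rw [← hs]
    exact h _ (by simp)
  · rw [← hs]
    exact h _ (by simp)
  · intro i
    rw [← hs]
    exact h _ (by simp)
  · linarith
  · intro i
    have := single_le_sum (fun i _ => house_nonneg' (D.β i)) (mem_univ i)
    linarith
  · linarith
  · intro i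
    have := single_le_sum (fun i _ => house_nonneg' (D.α i)) (mem_univ i)
    linarith
  · linarith

variable {D} {d : ℤ} {c : ℝ}

theorem isIntegral_ent (h1 : IsIntegral ℤ ((d : K) * D.β₀))
    (h2 : ∀ i, IsIntegral ℤ ((d : K) * D.β i)) (h3 : IsIntegral ℤ ((d : K) * D.α'))
    (h4 : ∀ i, IsIntegral ℤ ((d : K) * D.α i)) (x : Idx N L) (m : ℕ × (Fin N → ℕ)) (s : ℕ) :
    IsIntegral ℤ ((d : K) ^ (ord m + (N + 1) * L * s) * D.ent x m s) := by
  have hd : IsIntegral ℤ (d : K) := isIntegral_algebraMap (R := ℤ) (x := d)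
  have hn : ∀ n : ℕ, IsIntegral ℤ (n : K) := fun n => by
    exact_mod_cast isIntegral_algebraMap (R := ℤ) (A := K) (x := (n : ℤ))
  have e1 : IsIntegral ℤ ((d : K) ^ m.1 * (qp (D.γ₀ x) x.1 m.1).eval (s : K)) := by
    refine isIntegral_eval_qp ?_ _ _ _
    have : (d : K) * D.γ₀ x = ((x.2.2 : ℕ) : K) * ((d : K) * D.β₀) := by
      unfold Dat.γ₀
      ring
    rw [this]
    exact (hn _).mul h1
  have e2 : IsIntegral ℤ ((d : K) ^ (∑ i, m.2 i) * ∏ i, D.γ x i ^ m.2 i) := by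
    rw [← prod_pow_eq_pow_sum, ← prod_mul_distrib]
    refine IsIntegral.prod _ fun i _ => ?_
    rw [← mul_pow]
    refine IsIntegral.pow ?_ _
    have : (d : K) * D.γ x i = (d : K) * ((x.2.1 i : ℕ) : K) +
        ((x.2.2 : ℕ) : K) * ((d : K) * D.β i) := by
      unfold Dat.γ
      ring
    rw [this]
    exact (hd.mul (hn _)).add ((hn _).mul (h2 i))
  have e3 : IsIntegral ℤ ((d : K) ^ ((N + 1) * L) * D.A x) := by
    have hle : (x.2.2 : ℕ) + ∑ i, (x.2.1 i : ℕ) ≤ (N + 1) * L := by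
      have h5 : ∑ i : Fin N, (x.2.1 i : ℕ) ≤ N * L := by
        calc ∑ i : Fin N, (x.2.1 i : ℕ) ≤ ∑ _i : Fin N, L := sum_le_sum fun i _ =>
              (x.2.1 i).isLt.le
          _ = N * L := by simp
      have h6 := x.2.2.isLt
      calc (x.2.2 : ℕ) + ∑ i, (x.2.1 i : ℕ) ≤ L + N * L := add_le_add h6.le h5
        _ = (N + 1) * L := by ring
    have h5 : (d : K) ^ ((N + 1) * L) * D.A x = (d : K) ^ ((N + 1) * L - ((x.2.2 : ℕ) +
        ∑ i, (x.2.1 i : ℕ))) * (((d : K) * D.α') ^ (x.2.2 : ℕ) *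
        ∏ i, ((d : K) * D.α i) ^ (x.2.1 i : ℕ)) := by
      have h6 : ∏ i, ((d : K) * D.α i) ^ (x.2.1 i : ℕ) =
          (d : K) ^ (∑ i, (x.2.1 i : ℕ)) * ∏ i, D.α i ^ (x.2.1 i : ℕ) := by
        rw [← prod_pow_eq_pow_sum, ← prod_mul_distrib]
        exact prod_congr rfl fun i _ => mul_pow _ _ _
      rw [h6, mul_pow]
      unfold Dat.A
      have h7 : (d : K) ^ ((N + 1) * L) = (d : K) ^ ((N + 1) * L - ((x.2.2 : ℕ) +
          ∑ i, (x.2.1 i : ℕ))) * ((d : K) ^ (x.2.2 : ℕ) * (d : K) ^ (∑ i, (x.2.1 i : ℕ))) := by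
        rw [← pow_add, ← pow_add, Nat.sub_add_cancel hle]
      rw [h7]
      ring
    rw [h5]
    exact (hd.pow _).mul ((h3.pow _).mul (IsIntegral.prod _ fun i _ => (h4 i).pow _))
  have h5 : (d : K) ^ (ord m + (N + 1) * L * s) * D.ent x m s =
      ((d : K) ^ m.1 * (qp (D.γ₀ x) x.1 m.1).eval (s : K)) *
      ((d : K) ^ (∑ i, m.2 i) * ∏ i, D.γ x i ^ m.2 i) * ((d : K) ^ ((N + 1) * L) * D.A x) ^ s := by
    unfold ord Dat.ent
    rw [pow_add, pow_add, pow_mul, mul_pow ((d : K) ^ ((N + 1) * L))]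
    ring
  rw [h5]
  exact (e1.mul e2).mul (e3.pow s)

theorem house_γ₀_le (hβ₀ : 1 + house D.β₀ ≤ c) (x : Idx N L) :
    ((x.1 : ℕ) : ℝ) + house (D.γ₀ x) ≤ L * c := by
  unfold Dat.γ₀
  rw [house_nat_mul]
  have h1 : ((x.1 : ℕ) : ℝ) ≤ L := by exact_mod_cast x.1.isLt.le
  have h2 : ((x.2.2 : ℕ) : ℝ) ≤ L := by exact_mod_cast x.2.2.isLt.le
  calc ((x.1 : ℕ) : ℝ) + ((x.2.2 : ℕ) : ℝ) * house D.β₀ ≤ L + L * house D.β₀ :=
        add_le_add h1 (mul_le_mul_of_nonneg_right h2 (house_nonneg' _))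
    _ = L * (1 + house D.β₀) := by ring
    _ ≤ L * c := mul_le_mul_of_nonneg_left hβ₀ (Nat.cast_nonneg _)

theorem house_γ_le (hβ : ∀ i, 1 + house (D.β i) ≤ c) (x : Idx N L) (i : Fin N) :
    house (D.γ x i) ≤ L * c := by
  unfold Dat.γ
  refine (house_add_le _ _).trans ?_
  rw [house_nat_mul]
  have h0 : house (((x.2.1 i : ℕ) : K)) = ((x.2.1 i : ℕ) : ℝ) := by
    have := house_intCast (K := K) ((x.2.1 i : ℕ) : ℤ)
    simpa using this
  rw [h0]
  have h1 : ((x.2.1 i : ℕ) : ℝ) ≤ L := by exact_mod_cast (x.2.1 i).isLt.le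
  have h2 : ((x.2.2 : ℕ) : ℝ) ≤ L := by exact_mod_cast x.2.2.isLt.le
  calc ((x.2.1 i : ℕ) : ℝ) + ((x.2.2 : ℕ) : ℝ) * house (D.β i) ≤ L + L * house (D.β i) :=
        add_le_add h1 (mul_le_mul_of_nonneg_right h2 (house_nonneg' _))
    _ = L * (1 + house (D.β i)) := by ring
    _ ≤ L * c := mul_le_mul_of_nonneg_left (hβ i) (Nat.cast_nonneg _)

theorem house_prod_pow_le {ι : Type*} (s : Finset ι) (g : ι → K) (n : ι → ℕ) {X : ℝ}
    (h : ∀ i ∈ s, house (g i) ≤ X) :
    house (∏ i ∈ s, g i ^ n i) ≤ X ^ (∑ i ∈ s, n i) := by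
  classical
  induction s using Finset.induction_on with
  | empty => simp [house_one']
  | insert a s ha ih =>
    rw [prod_insert ha, sum_insert ha, pow_add]
    exact house_mul_le_mul (house_pow_le_pow (h a (mem_insert_self _ _)) _)
      (ih fun i hi => h i (mem_insert_of_mem hi))

theorem house_A_le (hc : 1 ≤ c) (hα' : house D.α' ≤ c) (hα : ∀ i, house (D.α i) ≤ c)
    (x : Idx N L) : house (D.A x) ≤ c ^ ((N + 1) * L) := by
  unfold Dat.A
  have h1 := house_mul_le_mul (house_pow_le_pow hα' (x.2.2 : ℕ))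
    (house_prod_pow_le univ D.α (fun i => (x.2.1 i : ℕ)) fun i _ => hα i)
  rw [← pow_add] at h1
  refine h1.trans (pow_le_pow_right₀ hc ?_)
  have h5 : ∑ i : Fin N, (x.2.1 i : ℕ) ≤ N * L := by
    calc ∑ i : Fin N, (x.2.1 i : ℕ) ≤ ∑ _i : Fin N, L := sum_le_sum fun i _ =>
          (x.2.1 i).isLt.le
      _ = N * L := by simp
  have h6 := x.2.2.isLt
  calc (x.2.2 : ℕ) + ∑ i, (x.2.1 i : ℕ) ≤ L + N * L := add_le_add h6.le h5
    _ = (N + 1) * L := by ring

theorem house_ent_le (hc : 1 ≤ c) (hβ₀ : 1 + house D.β₀ ≤ c) (hβ : ∀ i, 1 + house (D.β i) ≤ c)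
    (hα' : house D.α' ≤ c) (hα : ∀ i, house (D.α i) ≤ c) (x : Idx N L) (m : ℕ × (Fin N → ℕ))
    {s : ℕ} (hs : 1 ≤ s) :
    house (D.ent x m s) ≤ (L * c) ^ ord m * (s : ℝ) ^ L * c ^ ((N + 1) * L * s) := by
  have hsR : (1 : ℝ) ≤ s := by exact_mod_cast hs
  have e1 : house ((qp (D.γ₀ x) x.1 m.1).eval (s : K)) ≤ (L * c) ^ m.1 * (s : ℝ) ^ L := by
    refine (house_eval_le (qp_natDegree_le _ _ _) hs).trans ?_
    refine mul_le_mul ((nrm_qp_le _ _ _).trans (pow_le_pow_left₀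
      (add_nonneg (Nat.cast_nonneg _) (house_nonneg' _)) (house_γ₀_le hβ₀ x) _))
      (pow_le_pow_right₀ hsR x.1.isLt.le) (by positivity) (by positivity)
  have e2 := house_prod_pow_le univ (D.γ x) m.2 fun i _ => house_γ_le hβ x i
  have e3 : house (D.A x ^ s) ≤ c ^ ((N + 1) * L * s) := by
    rw [pow_mul]
    exact house_pow_le_pow (house_A_le hc hα' hα x) s
  unfold Dat.ent
  refine (house_mul_le_mul (house_mul_le_mul e1 e2) e3).trans (le_of_eq ?_)
  unfold ord
  rw [pow_add]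
  ring

theorem norm_ω_le (hl : ‖D.l'‖ + ∑ i, ‖D.l i‖ ≤ c) (x : Idx N L) : ‖D.ω x‖ ≤ L * c := by
  unfold Dat.ω
  refine (norm_add_le _ _).trans ?_
  have h1 : ‖((x.2.2 : ℕ) : ℂ) * D.l'‖ ≤ L * ‖D.l'‖ := by
    rw [norm_mul, Complex.norm_natCast]
    refine mul_le_mul_of_nonneg_right ?_ (norm_nonneg _)
    exact_mod_cast x.2.2.isLt.le
  have h2 : ‖∑ i, ((x.2.1 i : ℕ) : ℂ) * D.l i‖ ≤ L * ∑ i, ‖D.l i‖ := by
    rw [mul_sum]
    refine norm_sum_le_of_le _ fun i _ => ?_
    rw [norm_mul, Complex.norm_natCast]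
    refine mul_le_mul_of_nonneg_right ?_ (norm_nonneg _)
    exact_mod_cast (x.2.1 i).isLt.le
  calc _ ≤ L * ‖D.l'‖ + L * ∑ i, ‖D.l i‖ := add_le_add h1 h2
    _ = L * (‖D.l'‖ + ∑ i, ‖D.l i‖) := by ring
    _ ≤ L * c := mul_le_mul_of_nonneg_left hl (Nat.cast_nonneg _)

/-- the growth of `f` -/
theorem norm_f_le (hβ₀ : 1 + house D.β₀ ≤ c) (hβ : ∀ i, 1 + house (D.β i) ≤ c)
    (hl : ‖D.l'‖ + ∑ i, ‖D.l i‖ ≤ c) {p : Idx N L → K} {P : ℝ} (hP : ∀ x, house (p x) ≤ P)
    (m : ℕ × (Fin N → ℕ)) {z : ℂ} {R : ℝ} (hR : 1 ≤ R) (hz : ‖z‖ ≤ R) :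
    ‖D.f p m z‖ ≤ (L : ℝ) ^ (N + 2) * (P * ((L * c) ^ ord m * R ^ L * Real.exp (c * (L * R)))) := by
  have hterm : ∀ x ∈ (univ : Finset (Idx N L)), ‖D.σ (p x) *
      (((qp (D.γ₀ x) x.1 m.1).map D.σ).eval z * (∏ i, D.σ (D.γ x i) ^ m.2 i) *
      Complex.exp (D.ω x * z))‖ ≤ P * ((L * c) ^ ord m * R ^ L * Real.exp (c * (L * R))) := by
    intro x _
    have hLc : 0 ≤ (L : ℝ) * c := (add_nonneg (Nat.cast_nonneg _) (house_nonneg' _)).trans
      (house_γ₀_le hβ₀ x)
    have e1 : ‖((qp (D.γ₀ x) x.1 m.1).map D.σ).eval z‖ ≤ (L * c) ^ m.1 * R ^ L := by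
      refine (norm_eval_map_le (qp_natDegree_le _ _ _) D.σ hR hz).trans ?_
      refine mul_le_mul ((nrm_qp_le _ _ _).trans (pow_le_pow_left₀
        (add_nonneg (Nat.cast_nonneg _) (house_nonneg' _)) (house_γ₀_le hβ₀ x) _))
        (pow_le_pow_right₀ hR x.1.isLt.le) (by positivity) (by positivity)
    have e2 : ‖∏ i, D.σ (D.γ x i) ^ m.2 i‖ ≤ (L * c) ^ (∑ i, m.2 i) := by
      rw [norm_prod, ← prod_pow_eq_pow_sum]
      refine prod_le_prod (fun _ _ => norm_nonneg _) fun i _ => ?_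
      rw [norm_pow]
      exact pow_le_pow_left₀ (norm_nonneg _)
        ((norm_embedding_le_house _ _).trans (house_γ_le hβ x i)) _
    have e3 : ‖Complex.exp (D.ω x * z)‖ ≤ Real.exp (c * (L * R)) := by
      rw [Complex.norm_exp, Real.exp_le_exp]
      refine (Complex.re_le_norm _).trans ?_
      rw [norm_mul]
      calc ‖D.ω x‖ * ‖z‖ ≤ (L * c) * R := mul_le_mul (norm_ω_le hl x) hz (norm_nonneg _) hLc
        _ = c * (L * R) := by ring
    rw [norm_mul, norm_mul, norm_mul]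
    refine mul_le_mul ((norm_embedding_le_house _ _).trans (hP x)) ?_ (by positivity)
      ((house_nonneg' _).trans (hP x))
    refine mul_le_mul ?_ e3 (norm_nonneg _) (by positivity)
    refine (mul_le_mul e1 e2 (norm_nonneg _) (by positivity)).trans (le_of_eq ?_)
    unfold ord
    rw [pow_add]
    ring
  refine (norm_sum_le_of_le _ hterm).trans (le_of_eq ?_)
  rw [sum_const, nsmul_eq_mul]
  congr 1
  simp only [card_univ, Fintype.card_prod, Fintype.card_fin, Fintype.card_fun]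
  push_cast
  ring

variable (D)

theorem f_natCast (p : Idx N L → K) (m : ℕ × (Fin N → ℕ)) (s : ℕ) :
    D.f p m (s : ℂ) = D.σ (D.F p m s) := by
  unfold Dat.f Dat.F
  rw [map_sum]
  refine sum_congr rfl fun x _ => ?_
  rw [map_mul, map_mul, map_mul, map_prod, map_pow]
  have h1 : ((qp (D.γ₀ x) x.1 m.1).map D.σ).eval (s : ℂ) =
      D.σ ((qp (D.γ₀ x) x.1 m.1).eval (s : K)) := by
    rw [Polynomial.eval_map, ← map_natCast D.σ s, Polynomial.eval₂_at_apply]
  have h2 : Complex.exp (D.ω x * s) = D.σ (D.A x) ^ s := by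
    unfold Dat.A Dat.ω
    rw [map_mul, map_pow, map_prod, D.hα', mul_comm _ (s : ℂ), Complex.exp_nat_mul]
    congr 1
    rw [Complex.exp_add, Complex.exp_nat_mul, Complex.exp_sum]
    congr 1
    refine prod_congr rfl fun i _ => ?_
    rw [Complex.exp_nat_mul, map_pow, D.hα]
  rw [h1, h2]
  simp only [map_pow]

/-- increase of one component of the multi-index -/
def up (m : ℕ × (Fin N → ℕ)) (i : Fin N) : ℕ × (Fin N → ℕ) :=
  (m.1, Function.update m.2 i (m.2 i + 1))

theorem ord_up (m : ℕ × (Fin N → ℕ)) (i : Fin N) : ord (up m i) = ord m + 1 := by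
  classical
  unfold ord up
  rw [← add_sum_erase univ _ (mem_univ i), ← add_sum_erase univ m.2 (mem_univ i)]
  have h1 : ∑ x ∈ univ.erase i, Function.update m.2 i (m.2 i + 1) x = ∑ x ∈ univ.erase i, m.2 x :=
    sum_congr rfl fun x hx => Function.update_of_ne (ne_of_mem_erase hx) _ _
  simp only [Function.update_self]
  rw [h1]
  ring

theorem ω_expand (x : Idx N L) : D.ω x = D.σ (D.γ₀ x) + ∑ i, D.σ (D.γ x i) * D.l i := by
  unfold Dat.ω Dat.γ₀ Dat.γ
  rw [D.hl']
  simp only [map_mul, map_add, map_natCast, mul_add, mul_sum, add_mul, sum_add_distrib]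
  have h1 : ∑ i, ((x.2.2 : ℕ) : ℂ) * (D.σ (D.β i) * D.l i) =
      ∑ i, ((x.2.2 : ℕ) : ℂ) * D.σ (D.β i) * D.l i := sum_congr rfl fun i _ => by ring
  rw [h1]
  ring

theorem hasDerivAt_f (p : Idx N L → K) (m : ℕ × (Fin N → ℕ)) (z : ℂ) :
    HasDerivAt (D.f p m) (D.f p (m.1 + 1, m.2) z + ∑ i, D.l i * D.f p (up m i) z) z := by
  classical
  have h1 : ∀ x ∈ (univ : Finset (Idx N L)), HasDerivAt (fun z => D.σ (p x) *
      (((qp (D.γ₀ x) x.1 m.1).map D.σ).eval z * (∏ i, D.σ (D.γ x i) ^ m.2 i) *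
      Complex.exp (D.ω x * z)))
      (D.σ (p x) * ((((qp (D.γ₀ x) x.1 (m.1 + 1)).map D.σ).eval z) *
        (∏ i, D.σ (D.γ x i) ^ m.2 i) * Complex.exp (D.ω x * z)) +
        ∑ i, D.l i * (D.σ (p x) * (((qp (D.γ₀ x) x.1 m.1).map D.σ).eval z *
        (D.σ (D.γ x i) * ∏ j, D.σ (D.γ x j) ^ m.2 j) * Complex.exp (D.ω x * z)))) z := by
    intro x _
    have h2 : HasDerivAt (fun z => Complex.exp (D.ω x * z))
        (Complex.exp (D.ω x * z) * D.ω x) z := by
      have h4 : HasDerivAt (fun z : ℂ => D.ω x * z) (D.ω x) z := by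
        simpa using (hasDerivAt_id z).const_mul (D.ω x)
      exact h4.cexp
    have h3 := ((((qp (D.γ₀ x) x.1 m.1).map D.σ).hasDerivAt z).mul_const
      (∏ i, D.σ (D.γ x i) ^ m.2 i)).mul h2
    refine (h3.const_mul (D.σ (p x))).congr_deriv ?_
    have h4 : ∑ i, D.l i * (D.σ (p x) * (((qp (D.γ₀ x) x.1 m.1).map D.σ).eval z *
        (D.σ (D.γ x i) * ∏ j, D.σ (D.γ x j) ^ m.2 j) * Complex.exp (D.ω x * z))) =
        (∑ i, D.σ (D.γ x i) * D.l i) * (D.σ (p x) * (((qp (D.γ₀ x) x.1 m.1).map D.σ).eval z *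
        (∏ j, D.σ (D.γ x j) ^ m.2 j) * Complex.exp (D.ω x * z))) := by
      rw [sum_mul]
      exact sum_congr rfl fun i _ => by ring
    rw [h4, qp, Polynomial.map_add, Polynomial.map_mul, Polynomial.map_C, Polynomial.eval_add,
      Polynomial.eval_mul, Polynomial.eval_C, Polynomial.derivative_map, D.ω_expand x]
    ring
  refine (HasDerivAt.fun_sum h1).congr_deriv ?_
  rw [sum_add_distrib]
  congr 1
  rw [sum_comm]
  refine sum_congr rfl fun i _ => ?_
  rw [Dat.f, mul_sum]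
  refine sum_congr rfl fun x _ => ?_
  have h5 : ∏ j, D.σ (D.γ x j) ^ (up m i).2 j = D.σ (D.γ x i) * ∏ j, D.σ (D.γ x j) ^ m.2 j := by
    unfold up
    rw [← mul_prod_erase univ _ (mem_univ i), ← mul_prod_erase univ (fun j => D.σ (D.γ x j) ^ m.2 j)
      (mem_univ i)]
    have h6 : ∏ j ∈ univ.erase i, D.σ (D.γ x j) ^ Function.update m.2 i (m.2 i + 1) j =
        ∏ j ∈ univ.erase i, D.σ (D.γ x j) ^ m.2 j :=
      prod_congr rfl fun j hj => by rw [Function.update_of_ne (ne_of_mem_erase hj)]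
    simp only [Function.update_self]
    rw [h6, pow_succ]
    ring
  rw [h5]
  rfl

theorem differentiable_f (p : Idx N L → K) (m : ℕ × (Fin N → ℕ)) : Differentiable ℂ (D.f p m) :=
  fun z => (D.hasDerivAt_f p m z).differentiableAt

/-- the derivatives of `f` at natural numbers -/
theorem iteratedDeriv_f (p : Idx N L → K) {T s : ℕ} (h : ∀ m, ord m < T → D.F p m s = 0) (j : ℕ) :
    ∀ m : ℕ × (Fin N → ℕ), ord m + j < T → iteratedDeriv j (D.f p m) (s : ℂ) = 0 := by
  induction j with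
  | zero =>
    intro m hm
    rw [iteratedDeriv_zero, D.f_natCast, h m (by simpa using hm), map_zero]
  | succ j ih =>
    intro m hm
    have hdiff : ∀ m, ContDiffAt ℂ j (D.f p m) (s : ℂ) := fun m =>
      ((D.differentiable_f p m).contDiff).contDiffAt
    have h1 : deriv (D.f p m) = fun z => D.f p (m.1 + 1, m.2) z + ∑ i, D.l i * D.f p (up m i) z :=
      funext fun z => (D.hasDerivAt_f p m z).deriv
    rw [iteratedDeriv_succ', h1]
    have h2 : ContDiffAt ℂ j (fun z => ∑ i, D.l i * D.f p (up m i) z) (s : ℂ) :=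
      ContDiffAt.sum fun i _ => contDiffAt_const.mul (hdiff _)
    rw [iteratedDeriv_fun_add (hdiff _) h2, iteratedDeriv_fun_sum
      (fun i _ => contDiffAt_const.mul (hdiff _))]
    rw [ih (m.1 + 1, m.2) (by unfold ord at hm ⊢; simp only; omega), zero_add]
    refine sum_eq_zero fun i _ => ?_
    rw [iteratedDeriv_const_mul_field, ih (up m i) (by rw [ord_up]; omega), mul_zero]

end Dat

end Fermat.Agent.Cor.Baker
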