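import Fermat.Agent.Corollaries.Baker.Est

/-!
# Baker's theorem: the auxiliary function and the extrapolation step
-/

set_option autoImplicit false

open Finset NumberField

namespace Fermat.Agent.Cor.Baker

open Fermat.Agent.Cor.GS (house_nonneg' house_pow_le_pow house_mul_le_mul house_sum_le
  exists_siegel one_le_norm_mul exists_factor)

/-- the maximum principle for a function with many zeros -/
theorem norm_le_of_zeros {f : ℂ → ℂ} (hf : Differentiable ℂ f) {S T : ℕ}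
    (h0 : ∀ j ∈ Icc 1 S, ∀ k < T, iteratedDeriv k f (j : ℂ) = 0) {R M r₀ : ℝ}
    (hS : (S : ℝ) ≤ r₀) (hr : r₀ < R) (hM : ∀ z : ℂ, ‖z‖ = R → ‖f z‖ ≤ M) {z : ℂ}
    (hz : ‖z‖ ≤ r₀) : ‖f z‖ ≤ M * (2 * r₀ / (R - r₀)) ^ (S * T) := by
  obtain ⟨G, hG, hfG⟩ := exists_factor hf (r := T) (Icc 1 S) fun j hj =>
    (natCast_le_analyticOrderAt_iff_iteratedDeriv_eq_zero (hf.analyticAt _)).mpr (h0 j hj)
  have hρm : 0 < R - r₀ := by linarith
  have hr0 : 0 ≤ r₀ := (Nat.cast_nonneg S).trans hS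
  have hρ0 : 0 < R := by linarith
  have hcard : (Icc 1 S).card = S := by simp
  have h1 : ∀ z : ℂ, ‖z‖ = R → ‖G z‖ ≤ M / (R - r₀) ^ (S * T) := by
    intro z hz
    have h2 : (R - r₀) ^ (S * T) ≤ ‖∏ j ∈ Icc 1 S, (z - (j : ℂ)) ^ T‖ := by
      rw [norm_prod]
      have h3 : ∀ j ∈ Icc 1 S, (R - r₀) ^ T ≤ ‖(z - (j : ℂ)) ^ T‖ := by
        intro j hj
        rw [norm_pow]
        refine pow_le_pow_left₀ hρm.le ?_ _
        have h4 : ‖z‖ - ‖(j : ℂ)‖ ≤ ‖z - j‖ := norm_sub_norm_le _ _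
        rw [hz, Complex.norm_natCast] at h4
        have h5 : (j : ℝ) ≤ S := by exact_mod_cast (mem_Icc.mp hj).2
        linarith
      calc (R - r₀) ^ (S * T) = ∏ _j ∈ Icc 1 S, (R - r₀) ^ T := by
            rw [prod_const, hcard, ← pow_mul, mul_comm]
        _ ≤ _ := prod_le_prod (fun _ _ => by positivity) h3
    have h6 := hM z hz
    rw [hfG, norm_mul] at h6
    rw [le_div_iff₀ (by positivity), mul_comm]
    exact (mul_le_mul_of_nonneg_right h2 (norm_nonneg _)).trans h6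
  have h2 : ‖G z‖ ≤ M / (R - r₀) ^ (S * T) := by
    refine Complex.norm_le_of_forall_mem_frontier_norm_le (U := Metric.ball 0 R)
      Metric.isBounded_ball hG.diffContOnCl (fun w hw => ?_) ?_
    · rw [frontier_ball _ hρ0.ne'] at hw
      exact h1 w (by simpa using hw)
    · rw [closure_ball _ hρ0.ne']
      have : ‖z‖ ≤ R := hz.trans hr.le
      simpa using this
  have h4 : ‖∏ j ∈ Icc 1 S, (z - (j : ℂ)) ^ T‖ ≤ (2 * r₀) ^ (S * T) := by
    rw [norm_prod]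
    calc ∏ j ∈ Icc 1 S, ‖(z - (j : ℂ)) ^ T‖ ≤ ∏ _j ∈ Icc 1 S, (2 * r₀) ^ T := by
          refine prod_le_prod (fun _ _ => norm_nonneg _) fun j hj => ?_
          rw [norm_pow]
          refine pow_le_pow_left₀ (norm_nonneg _) ?_ _
          have hjm' : (j : ℝ) ≤ S := by exact_mod_cast (mem_Icc.mp hj).2
          refine (norm_sub_le _ _).trans ?_
          rw [Complex.norm_natCast]
          linarith
      _ = (2 * r₀) ^ (S * T) := by rw [prod_const, hcard, ← pow_mul, mul_comm T S]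
  rw [hfG, norm_mul]
  calc ‖∏ j ∈ Icc 1 S, (z - (j : ℂ)) ^ T‖ * ‖G z‖ ≤
      (2 * r₀) ^ (S * T) * (M / (R - r₀) ^ (S * T)) :=
        mul_le_mul h4 h2 (norm_nonneg _) (by positivity)
    _ = M * (2 * r₀ / (R - r₀)) ^ (S * T) := by
        rw [div_pow]
        ring

/-- the bound for the entries of the linear system -/
noncomputable def bA (N L k S : ℕ) (c : ℝ) : ℝ :=
  c ^ ((N + 1) * k + (N + 1) * L * S) *
    ((L * c) ^ ((N + 1) * k) * (S : ℝ) ^ L * c ^ ((N + 1) * L * S))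

/-- the bound for the two sides in the extrapolation step -/
noncomputable def bZ (N L k S X : ℕ) (c P : ℝ) : ℝ :=
  c ^ (k + 2 * ((N + 1) * L * S)) * ((L : ℝ) ^ (N + 2) * (P * ((L * c) ^ k *
    (3 * X * S : ℝ) ^ L * Real.exp (c * (L * (3 * X * S))))))

namespace Dat

variable {K : Type} [Field K] [NumberField K] {N L : ℕ} {D : Dat N K} {d : ℤ} {c : ℝ}

/-- the auxiliary function -/
theorem exists_aux (hc : 1 ≤ c) (hd : |(d : ℝ)| ≤ c) (hd0 : d ≠ 0)
    (i1 : IsIntegral ℤ ((d : K) * D.β₀))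
    (i2 : ∀ i, IsIntegral ℤ ((d : K) * D.β i)) (i3 : IsIntegral ℤ ((d : K) * D.α'))
    (i4 : ∀ i, IsIntegral ℤ ((d : K) * D.α i))
    (hβ₀ : 1 + house D.β₀ ≤ c) (hβ : ∀ i, 1 + house (D.β i) ≤ c)
    (hα' : house D.α' ≤ c) (hα : ∀ i, house (D.α i) ≤ c) {C : ℝ}
    (hC : ∀ (ι κ : Type) [Fintype ι] [Fintype κ] (N : ℕ), 0 < N →
      Fintype.card ι = N → Fintype.card κ = 2 * N → ∀ (a : Matrix ι κ (𝓞 K)) (A : ℝ), 1 ≤ A →
      (∀ i j, house (a i j : K) ≤ A) → ∃ ξ : κ → 𝓞 K, ξ ≠ 0 ∧ (∀ i, ∑ j, a i j * ξ j = 0) ∧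
        ∀ j, house (ξ j : K) ≤ C ^ 2 * (2 * N) * A) {k S : ℕ} (hk : 0 < k) (hS : 0 < S)
    (hL : L ^ (N + 2) = 2 * (k ^ (N + 1) * S)) :
    ∃ p : Idx N L → 𝓞 K, p ≠ 0 ∧ (∀ m : ℕ × (Fin N → ℕ), ord m < k → ∀ s : ℕ, 1 ≤ s → s ≤ S →
      D.F (fun x => algebraMap (𝓞 K) K (p x)) m s = 0) ∧
      ∀ x, house (algebraMap (𝓞 K) K (p x)) ≤ C ^ 2 * (L : ℝ) ^ (N + 2) * bA N L k S c := by
  classical
  have hL0 : 1 ≤ L := by
    by_contra hcon
    have : L = 0 := by omega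
    rw [this, zero_pow (by omega)] at hL
    have : 0 < k ^ (N + 1) * S := by positivity
    omega
  have hLR : (1 : ℝ) ≤ L := by exact_mod_cast hL0
  have hLc : 1 ≤ (L : ℝ) * c := one_le_mul_of_one_le_of_one_le hLR hc
  have hSR : (1 : ℝ) ≤ S := by exact_mod_cast hS
  have hA1 : 1 ≤ bA N L k S c := by
    unfold bA
    have h1 : 1 ≤ c ^ ((N + 1) * k + (N + 1) * L * S) := one_le_pow₀ hc
    have h2 : 1 ≤ ((L : ℝ) * c) ^ ((N + 1) * k) := one_le_pow₀ hLc
    have h3 : 1 ≤ (S : ℝ) ^ L := one_le_pow₀ hSR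
    have h4 : 1 ≤ c ^ ((N + 1) * L * S) := one_le_pow₀ hc
    exact one_le_mul_of_one_le_of_one_le h1
      (one_le_mul_of_one_le_of_one_le (one_le_mul_of_one_le_of_one_le h2 h3) h4)
  let mi : (Fin k × (Fin N → Fin k)) × Fin S → ℕ × (Fin N → ℕ) :=
    fun i => ((i.1.1 : ℕ), fun j => (i.1.2 j : ℕ))
  have hord : ∀ i, ord (mi i) ≤ (N + 1) * k := by
    intro i
    unfold ord
    have h5 : ∑ j : Fin N, (i.1.2 j : ℕ) ≤ N * k := by
      calc ∑ j : Fin N, (i.1.2 j : ℕ) ≤ ∑ _j : Fin N, k := sum_le_sum fun j _ =>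
            (i.1.2 j).isLt.le
        _ = N * k := by simp
    calc (i.1.1 : ℕ) + ∑ j, (i.1.2 j : ℕ) ≤ k + N * k := add_le_add i.1.1.isLt.le h5
      _ = (N + 1) * k := by ring
  obtain ⟨p, hp0, hp, hpb⟩ := hC ((Fin k × (Fin N → Fin k)) × Fin S) (Idx N L)
    (k ^ (N + 1) * S) (by positivity)
    (by simp only [Fintype.card_prod, Fintype.card_fin, Fintype.card_fun]; ring)
    (by simp only [Fintype.card_prod, Fintype.card_fin, Fintype.card_fun]; rw [← hL]; ring)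
    (fun i x => ⟨_, isIntegral_ent i1 i2 i3 i4 x (mi i) ((i.2 : ℕ) + 1)⟩) (bA N L k S c) hA1 (by
      intro i x
      show house ((d : K) ^ (ord (mi i) + (N + 1) * L * ((i.2 : ℕ) + 1)) *
        D.ent x (mi i) ((i.2 : ℕ) + 1)) ≤ _
      have hs1 : 1 ≤ (i.2 : ℕ) + 1 := by omega
      have hs2 : (i.2 : ℕ) + 1 ≤ S := i.2.isLt
      have hd' : house ((d : K)) ≤ c := by
        rw [house_intCast]
        push_cast
        exact hd
      refine (house_mul_le_mul (house_pow_le_pow hd' _)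
        (house_ent_le hc hβ₀ hβ hα' hα x (mi i) hs1)).trans ?_
      unfold bA
      have e1 : (N + 1) * L * ((i.2 : ℕ) + 1) ≤ (N + 1) * L * S := Nat.mul_le_mul_left _ hs2
      have e2 : ord (mi i) + (N + 1) * L * ((i.2 : ℕ) + 1) ≤ (N + 1) * k + (N + 1) * L * S :=
        add_le_add (hord i) e1
      have e3 : ((((i.2 : ℕ) + 1 : ℕ)) : ℝ) ≤ S := by exact_mod_cast hs2
      have f1 := pow_le_pow_right₀ hc e2
      have f2 := pow_le_pow_right₀ hLc (hord i)
      have f3 : ((((i.2 : ℕ) + 1 : ℕ)) : ℝ) ^ L ≤ (S : ℝ) ^ L :=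
        pow_le_pow_left₀ (Nat.cast_nonneg _) e3 _
      have f4 := pow_le_pow_right₀ hc e1
      have hc0 : 0 ≤ c := by linarith
      exact mul_le_mul f1 (mul_le_mul (mul_le_mul f2 f3 (by positivity) (by positivity)) f4
        (by positivity) (by positivity)) (by positivity) (by positivity))
  refine ⟨p, hp0, ?_, ?_⟩
  · intro m hm s hs1 hs2
    have hm1 : m.1 < k := by
      unfold ord at hm
      omega
    have hm2 : ∀ i, m.2 i < k := by
      intro i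
      have := single_le_sum (fun j _ => Nat.zero_le (m.2 j)) (mem_univ i)
      unfold ord at hm
      omega
    have h1 := congrArg (algebraMap (𝓞 K) K)
      (hp ((⟨m.1, hm1⟩, fun i => ⟨m.2 i, hm2 i⟩), ⟨s - 1, by omega⟩))
    rw [map_sum, map_zero] at h1
    have hmi : mi ((⟨m.1, hm1⟩, fun i => ⟨m.2 i, hm2 i⟩), ⟨s - 1, by omega⟩) = m := rfl
    have hs3 : s - 1 + 1 = s := by omega
    have h2 : (d : K) ^ (ord m + (N + 1) * L * s) *
        D.F (fun x => algebraMap (𝓞 K) K (p x)) m s = 0 := by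
      rw [F_eq, mul_sum, ← h1]
      refine sum_congr rfl fun x _ => ?_
      rw [map_mul]
      show _ = ((d : K) ^ (ord (mi ((⟨m.1, hm1⟩, fun i => ⟨m.2 i, hm2 i⟩), ⟨s - 1, _⟩)) +
        (N + 1) * L * (s - 1 + 1)) * D.ent x (mi ((⟨m.1, hm1⟩, fun i => ⟨m.2 i, hm2 i⟩),
        ⟨s - 1, _⟩)) (s - 1 + 1)) * _
      rw [hmi, hs3]
      ring
    rcases mul_eq_zero.mp h2 with h3 | h3
    · exact absurd h3 (pow_ne_zero _ (Int.cast_ne_zero.mpr hd0))
    · exact h3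
  · intro x
    refine (hpb x).trans (le_of_eq ?_)
    congr 2
    have : (L : ℝ) ^ (N + 2) = 2 * ((k : ℝ) ^ (N + 1) * S) := by exact_mod_cast hL
    rw [this]
    push_cast
    ring

/-- the extrapolation step -/
theorem step (hc : 1 ≤ c) (hd : |(d : ℝ)| ≤ c) (hd0 : d ≠ 0)
    (i1 : IsIntegral ℤ ((d : K) * D.β₀))
    (i2 : ∀ i, IsIntegral ℤ ((d : K) * D.β i)) (i3 : IsIntegral ℤ ((d : K) * D.α'))
    (i4 : ∀ i, IsIntegral ℤ ((d : K) * D.α i))
    (hβ₀ : 1 + house D.β₀ ≤ c) (hβ : ∀ i, 1 + house (D.β i) ≤ c)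
    (hα' : house D.α' ≤ c) (hα : ∀ i, house (D.α i) ≤ c)
    (hl : ‖D.l'‖ + ∑ i, ‖D.l i‖ ≤ c) {p : Idx N L → 𝓞 K} {P : ℝ} (hP0 : 0 ≤ P)
    (hP : ∀ x, house (algebraMap (𝓞 K) K (p x)) ≤ P) (hL : 1 ≤ L) {T T' S S' X k : ℕ}
    (hT : 2 * T' ≤ T) (hT'k : T' ≤ k) (hS : S ≤ S') (hX : 1 ≤ X) (hS' : 1 ≤ S')
    (h : ∀ m : ℕ × (Fin N → ℕ), ord m < T → ∀ s : ℕ, 1 ≤ s → s ≤ S →
      D.F (fun x => algebraMap (𝓞 K) K (p x)) m s = 0)
    (hineq : bZ N L k S' X c P ^ (Module.finrank ℚ K) < (X : ℝ) ^ (S * T')) :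
    ∀ m : ℕ × (Fin N → ℕ), ord m < T' → ∀ s : ℕ, 1 ≤ s → s ≤ S' →
      D.F (fun x => algebraMap (𝓞 K) K (p x)) m s = 0 := by
  intro m hm s hs1 hs2
  by_contra hF
  have hc0 : 0 ≤ c := by linarith
  have hLR : (1 : ℝ) ≤ L := by exact_mod_cast hL
  have hLc : 1 ≤ (L : ℝ) * c := one_le_mul_of_one_le_of_one_le hLR hc
  have hXR : (1 : ℝ) ≤ X := by exact_mod_cast hX
  have hS'R : (1 : ℝ) ≤ S' := by exact_mod_cast hS'
  have hSS' : (S : ℝ) ≤ S' := by exact_mod_cast hS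
  have hs2R : (s : ℝ) ≤ S' := by exact_mod_cast hs2
  set q : Idx N L → K := fun x => algebraMap (𝓞 K) K (p x) with hq
  set R : ℝ := 3 * X * S' with hR
  have hR3 : 3 * (S' : ℝ) ≤ R := by
    rw [hR]
    nlinarith
  have hR1 : 1 ≤ R := by linarith
  set e : ℕ := ord m + (N + 1) * L * s with he
  -- the zeros
  have hz : ∀ j ∈ Icc 1 S, ∀ i < T', iteratedDeriv i (D.f q m) (j : ℂ) = 0 := by
    intro j hj i hi
    refine D.iteratedDeriv_f q (T := T) (fun m' hm' => h m' hm' j (mem_Icc.mp hj).1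
      (mem_Icc.mp hj).2) i m (by omega)
  have hbd := norm_le_of_zeros (D.differentiable_f q m) hz (R := R) (r₀ := S') hSS'
    (by linarith) (M := (L : ℝ) ^ (N + 2) * (P * ((L * c) ^ ord m * R ^ L *
      Real.exp (c * (L * R))))) (fun z hz => norm_f_le hβ₀ hβ hl hP m hR1 hz.le) (z := (s : ℂ))
    (by rw [Complex.norm_natCast]; exact hs2R)
  have hratio : 2 * (S' : ℝ) / (R - S') ≤ 1 / X := by
    rw [div_le_div_iff₀ (by linarith) (by linarith), hR]
    nlinarith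
  have hratio' : (2 * (S' : ℝ) / (R - S')) ^ (S * T') ≤ 1 / (X : ℝ) ^ (S * T') := by
    rw [← one_div_pow]
    exact pow_le_pow_left₀ (div_nonneg (by linarith) (by linarith)) hratio _
  -- the algebraic integer
  have hint : IsIntegral ℤ ((d : K) ^ e * D.F q m s) := by
    rw [F_eq, mul_sum]
    refine IsIntegral.sum _ fun x _ => ?_
    have : (d : K) ^ e * (q x * D.ent x m s) = q x * ((d : K) ^ e * D.ent x m s) := by ring
    rw [this]
    exact (RingOfIntegers.isIntegral_coe (p x)).mul (isIntegral_ent i1 i2 i3 i4 x m s)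
  set ρ : 𝓞 K := ⟨_, hint⟩ with hρ
  have hρK : algebraMap (𝓞 K) K ρ = (d : K) ^ e * D.F q m s := rfl
  have hρ0 : ρ ≠ 0 := by
    intro h0
    have h1 := congrArg (algebraMap (𝓞 K) K) h0
    rw [map_zero, hρK] at h1
    exact mul_ne_zero (pow_ne_zero _ (Int.cast_ne_zero.mpr hd0)) hF h1
  have hnorm := one_le_norm_mul hρ0 D.σ
  set Z := bZ N L k S' X c P with hZ
  have hordk : ord m ≤ k := by omega
  have e1 : (N + 1) * L * s ≤ (N + 1) * L * S' := Nat.mul_le_mul_left _ hs2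
  have hZ' : ∀ (E : ℕ) (r : ℝ) (x : ℝ), E ≤ k + 2 * ((N + 1) * L * S') → 0 ≤ r → r ≤ R →
      x ≤ Real.exp (c * (L * R)) → 0 ≤ x →
      c ^ E * ((L : ℝ) ^ (N + 2) * (P * ((L * c) ^ ord m * r ^ L * x))) ≤ Z := by
    intro E r x hE hr0 hr hx hx0
    rw [hZ]
    unfold bZ
    have g1 := pow_le_pow_right₀ hc hE
    have g2 := pow_le_pow_right₀ hLc hordk
    have g3 := pow_le_pow_left₀ hr0 hr L
    exact mul_le_mul g1 (mul_le_mul_of_nonneg_left (mul_le_mul_of_nonneg_left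
      (mul_le_mul (mul_le_mul g2 g3 (by positivity) (by positivity)) hx hx0 (by positivity)) hP0)
      (by positivity)) (by positivity) (by positivity)
  have hd' : house ((d : K)) ≤ c := by
    rw [house_intCast]
    push_cast
    exact hd
  have k1 : house (algebraMap (𝓞 K) K ρ) ≤ Z := by
    rw [hρK]
    have g1 : house (D.F q m s) ≤ (L : ℝ) ^ (N + 2) *
        (P * ((L * c) ^ ord m * (s : ℝ) ^ L * c ^ ((N + 1) * L * s))) := by
      rw [F_eq]
      refine (house_sum_le _ _ fun x _ => house_mul_le_mul (hP x)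
        (house_ent_le hc hβ₀ hβ hα' hα x m hs1)).trans (le_of_eq ?_)
      congr 1
      simp only [card_univ, Fintype.card_prod, Fintype.card_fin, Fintype.card_fun]
      push_cast
      ring
    refine (house_mul_le_mul (house_pow_le_pow hd' e) g1).trans ?_
    refine le_trans (le_of_eq ?_) (hZ' (e + (N + 1) * L * s) s 1 (by omega)
      (Nat.cast_nonneg _) (by linarith) (Real.one_le_exp (by positivity)) zero_le_one)
    rw [pow_add]
    ring
  have k2 : ‖D.σ (algebraMap (𝓞 K) K ρ)‖ ≤ Z / (X : ℝ) ^ (S * T') := by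
    rw [hρK, map_mul, map_pow, map_intCast, norm_mul, norm_pow, Complex.norm_intCast,
      ← D.f_natCast]
    have g1 : ‖D.f q m (s : ℂ)‖ ≤ ((L : ℝ) ^ (N + 2) * (P * ((L * c) ^ ord m * R ^ L *
        Real.exp (c * (L * R))))) * (1 / (X : ℝ) ^ (S * T')) :=
      hbd.trans (mul_le_mul_of_nonneg_left hratio' (by positivity))
    refine (mul_le_mul (pow_le_pow_left₀ (abs_nonneg _) hd e) g1 (norm_nonneg _)
      (by positivity)).trans ?_
    have g2 := hZ' e R (Real.exp (c * (L * R))) (by omega) (by linarith) (le_refl _) (le_refl _)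
      (Real.exp_pos _).le
    rw [← mul_assoc, mul_one_div]
    exact div_le_div_of_nonneg_right g2 (by positivity)
  have hXpos : 0 < (X : ℝ) ^ (S * T') := by positivity
  have hZ0 : 0 ≤ Z := (house_nonneg' _).trans k1
  have k3 : 1 ≤ Z / (X : ℝ) ^ (S * T') * Z ^ (Module.finrank ℚ K - 1) :=
    hnorm.trans (mul_le_mul k2 (pow_le_pow_left₀ (house_nonneg' _) k1 _)
      (pow_nonneg (house_nonneg' _) _) (div_nonneg hZ0 hXpos.le))
  have k4 : Z / (X : ℝ) ^ (S * T') * Z ^ (Module.finrank ℚ K - 1) =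
      Z ^ (Module.finrank ℚ K) / (X : ℝ) ^ (S * T') := by
    have hfr : Module.finrank ℚ K = (Module.finrank ℚ K - 1) + 1 := by
      have := Module.finrank_pos (R := ℚ) (M := K)
      omega
    rw [hfr, pow_succ]
    simp only [Nat.add_sub_cancel]
    ring
  rw [k4, le_div_iff₀ hXpos, one_mul] at k3
  exact absurd hineq (not_lt.mpr k3)

end Dat

end Fermat.Agent.Cor.Baker
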