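import Fermat.Agent.Corollaries.Baker.Defs

/-!
# Baker's theorem: a function with sufficiently many zeros is zero

The algebraic part of the proof: an exponential polynomial
`F p m s = ∑ p(λ) (d/dX + γ₀) ^ m₀ X ^ λ₀ (s) γ ^ m α ^ (λ s)` which vanishes for
`1 ≤ s ≤ S`, `|m| < T` has all coefficients `p(λ) = 0` if `L ^ (N + 2) ≤ S`, `L ≤ T`.
-/

set_option autoImplicit false

open Finset Polynomial

namespace Fermat.Agent.Cor.Baker

/-! ### The generalised Vandermonde determinant -/

section Vand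

variable {K : Type*} [Field K] [CharZero K]

omit [CharZero K] in
/-- The difference operator lowers the degree. -/
theorem degree_taylor_sub {P : K[X]} (hP : P ≠ 0) : (taylor 1 P - P).degree < P.degree := by
  have h := degree_sub_lt_left (degree_taylor P 1) ((taylor_eq_zero (1 : K) P).not.mpr hP)
    (leadingCoeff_taylor (r := (1 : K)) (f := P))
  rwa [degree_taylor] at h

/-- A periodic polynomial with a zero is zero. -/
theorem eq_zero_of_taylor {P : K[X]} (h : taylor 1 P = P) {a : K} (ha : P.eval a = 0) : P = 0 := by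
  have h1 : ∀ k : ℕ, P.eval (a + k) = 0 := by
    intro k
    induction k with
    | zero => simpa using ha
    | succ k ih =>
      rw [Nat.cast_succ, ← add_assoc, ← taylor_eval, h]
      exact ih
  refine eq_zero_of_infinite_isRoot P ?_
  refine Set.infinite_of_injective_forall_mem (f := fun k : ℕ => a + (k : K)) ?_ h1
  intro k l hkl
  exact Nat.cast_injective (add_left_cancel hkl)

/-- **Generalised Vandermonde**: `∑ P_w(a + i) w ^ i = 0` for `i < ∑ b_w`, `deg P_w < b_w`, implies
`P_w = 0`. -/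
theorem vandermonde {W : Finset K} (hW : ∀ w ∈ W, w ≠ 0) :
    ∀ (n : ℕ) (b : K → ℕ) (P : K → K[X]) (a : K), ∑ w ∈ W, b w = n →
      (∀ w ∈ W, (P w).degree < (b w : WithBot ℕ)) →
      (∀ i < n, ∑ w ∈ W, (P w).eval (a + i) * w ^ i = 0) → ∀ w ∈ W, P w = 0 := by
  classical
  intro n
  induction n with
  | zero =>
    intro b P a hb hdeg _ w hw
    have h0 : b w = 0 := (sum_eq_zero_iff.mp hb) w hw
    have h1 := hdeg w hw
    rw [h0] at h1
    by_contra h2
    exact absurd h1 (not_lt.mpr (zero_le_degree_iff.mpr h2))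
  | succ n ih =>
    intro b P a hb hdeg hu
    obtain ⟨w₀, hw₀, hb₀⟩ : ∃ w ∈ W, b w ≠ 0 := exists_ne_zero_of_sum_ne_zero (by omega)
    have hw₀' := hW w₀ hw₀
    have hP' : ∀ w ∈ W, C (w / w₀) * taylor 1 (P w) - P w = 0 := by
      refine ih (Function.update b w₀ (b w₀ - 1)) _ a ?_ ?_ ?_
      · rw [sum_update_of_mem hw₀]
        have h1 := sum_sdiff (f := b) (singleton_subset_iff.mpr hw₀)
        rw [sum_singleton] at h1
        omega
      · intro w hw
        by_cases hww : w = w₀
        · subst hww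
          rw [Function.update_self, div_self hw₀', C_1, one_mul]
          by_cases h0 : P w = 0
          · rw [h0, map_zero, sub_zero, degree_zero]
            exact WithBot.bot_lt_coe _
          · have h1 := degree_taylor_sub h0
            have h2 := hdeg w hw
            rw [degree_eq_natDegree h0] at h1 h2
            refine h1.trans_le ?_
            have h3 : (P w).natDegree < b w := by exact_mod_cast h2
            have h4 : (P w).natDegree ≤ b w - 1 := by omega
            exact_mod_cast h4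
        · rw [Function.update_of_ne hww]
          refine (degree_sub_le _ _).trans_lt (max_lt ?_ (hdeg w hw))
          rw [degree_C_mul (div_ne_zero (hW w hw) hw₀'), degree_taylor]
          exact hdeg w hw
      · intro i hi
        have h1 := hu (i + 1) (by omega)
        have h2 := hu i (by omega)
        have h3 : ∑ w ∈ W, (C (w / w₀) * taylor 1 (P w) - P w).eval (a + i) * w ^ i =
            (∑ w ∈ W, (P w).eval (a + (i + 1 : ℕ)) * w ^ (i + 1)) / w₀ -
              ∑ w ∈ W, (P w).eval (a + i) * w ^ i := by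
          rw [sum_div, ← sum_sub_distrib]
          refine sum_congr rfl fun w _ => ?_
          rw [eval_sub, eval_mul, eval_C, taylor_eval, Nat.cast_succ, ← add_assoc]
          field_simp
          ring
        rw [h3, h1, h2, zero_div, sub_zero]
    have hne : ∀ w ∈ W, w ≠ w₀ → P w = 0 := by
      intro w hw hww
      have h1 := hP' w hw
      have h2 := congrArg leadingCoeff (sub_eq_zero.mp h1)
      rw [leadingCoeff_mul, leadingCoeff_C, leadingCoeff_taylor] at h2
      by_contra h3
      have h4 : w / w₀ = 1 := by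
        have h5 : (P w).leadingCoeff ≠ 0 := leadingCoeff_ne_zero.mpr h3
        exact mul_right_cancel₀ h5 (by rw [h2, one_mul])
      exact hww ((div_eq_one_iff_eq hw₀').mp h4)
    have h0 : (P w₀).eval a = 0 := by
      have h1 := hu 0 (by omega)
      rw [sum_eq_single_of_mem w₀ hw₀ fun w hw hww => by rw [hne w hw hww, eval_zero, zero_mul]]
        at h1
      simpa using h1
    intro w hw
    by_cases hww : w = w₀
    · subst hww
      have h1 := hP' w hw
      rw [div_self hw₀', C_1, one_mul, sub_eq_zero] at h1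
      exact eq_zero_of_taylor h1 h0
    · exact hne w hw hww

end Vand

/-! ### The polynomials `(d/dX + b) ^ m X ^ e` -/

section qp

variable {K : Type} [Field K]

theorem natDegree_qp_le (b : K) (e m : ℕ) : (qp b e m).natDegree ≤ e := by
  induction m with
  | zero => rw [qp, natDegree_X_pow]
  | succ m ih =>
    rw [qp]
    refine (natDegree_add_le _ _).trans (max_le ?_ ?_)
    · exact (natDegree_derivative_le _).trans ((Nat.sub_le _ _).trans ih)
    · exact (natDegree_C_mul_le _ _).trans ih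

theorem coeff_qp (b : K) (e m : ℕ) : (qp b e m).coeff e = b ^ m := by
  induction m with
  | zero => rw [qp, coeff_X_pow_self, pow_zero]
  | succ m ih =>
    rw [qp, coeff_add, coeff_C_mul, ih, coeff_derivative,
      coeff_eq_zero_of_natDegree_lt ((natDegree_qp_le b e m).trans_lt (Nat.lt_succ_self e)),
      zero_mul, zero_add, pow_succ']

theorem coeff_qp_of_lt (b : K) {e e' : ℕ} (m : ℕ) (h : e < e') : (qp b e m).coeff e' = 0 :=
  coeff_eq_zero_of_natDegree_lt ((natDegree_qp_le b e m).trans_lt h)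

end qp

/-- Vandermonde for power sums. -/
theorem eq_zero_of_power_sums {K : Type*} [Field K] {ι : Type*} [DecidableEq ι] {C : Finset ι}
    {c g : ι → K} (hg : Set.InjOn g C) {T : ℕ} (hT : #C ≤ T)
    (h : ∀ j < T, ∑ x ∈ C, c x * g x ^ j = 0) {y : ι} (hy : y ∈ C) : c y = 0 := by
  have h1 : ∀ Q : K[X], Q.natDegree < T → ∑ x ∈ C, c x * Q.eval (g x) = 0 := by
    intro Q hQ
    have h2 : ∀ x ∈ C, c x * Q.eval (g x) =
        ∑ j ∈ range (Q.natDegree + 1), Q.coeff j * (c x * g x ^ j) := by
      intro x _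
      rw [eval_eq_sum_range, mul_sum]
      exact sum_congr rfl fun j _ => by ring
    rw [sum_congr rfl h2, sum_comm]
    refine sum_eq_zero fun j hj => ?_
    rw [← mul_sum, h j (by rw [mem_range] at hj; omega), mul_zero]
  have hcard : 0 < #C := card_pos.mpr ⟨y, hy⟩
  have h2 := h1 (∏ x ∈ C.erase y, (X - Polynomial.C (g x))) (by
    rw [natDegree_prod_of_monic _ _ fun x _ => monic_X_sub_C (g x)]
    simp only [natDegree_X_sub_C, sum_const, smul_eq_mul, mul_one]
    rw [card_erase_of_mem hy]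
    omega)
  rw [sum_eq_single_of_mem y hy] at h2
  · refine (mul_eq_zero.mp h2).resolve_right ?_
    rw [eval_prod, ← ne_eq, prod_ne_zero_iff]
    intro x hx
    rw [mem_erase] at hx
    rw [eval_sub, eval_X, eval_C, sub_ne_zero]
    exact fun h3 => hx.1 (hg hx.2 hy h3.symm)
  · intro x hx hxy
    rw [eval_prod, prod_eq_zero (mem_erase.mpr ⟨hxy, hx⟩), mul_zero]
    rw [eval_sub, eval_X, eval_C, sub_self]

namespace Dat

variable {K : Type} [Field K] [NumberField K] {N L : ℕ} (D : Dat N K)

theorem α_ne_zero (i : Fin N) : D.α i ≠ 0 := by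
  intro h
  have h1 := D.hα i
  rw [h, map_zero] at h1
  exact Complex.exp_ne_zero _ h1.symm

theorem α'_ne_zero : D.α' ≠ 0 := by
  intro h
  have h1 := D.hα'
  rw [h, map_zero] at h1
  exact Complex.exp_ne_zero _ h1.symm

theorem A_ne_zero (x : Idx N L) : D.A x ≠ 0 :=
  mul_ne_zero (pow_ne_zero _ D.α'_ne_zero)
    (prod_ne_zero_iff.mpr fun i _ => pow_ne_zero _ (D.α_ne_zero i))

theorem σ_A (x : Idx N L) : D.σ (D.A x) = Complex.exp (D.ω x) := by
  rw [A, ω, map_mul, map_pow, map_prod, Complex.exp_add, Complex.exp_nat_mul, D.hα',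
    Complex.exp_sum]
  congr 1
  refine prod_congr rfl fun i _ => ?_
  rw [map_pow, D.hα, Complex.exp_nat_mul]

theorem ω_eq (x : Idx N L) : D.ω x = D.σ (D.γ₀ x) + ∑ i, D.σ (D.γ x i) * D.l i := by
  have h : ∀ i, D.σ (D.γ x i) * D.l i =
      ((x.2.1 i : ℕ) : ℂ) * D.l i + ((x.2.2 : ℕ) : ℂ) * (D.σ (D.β i) * D.l i) := by
    intro i
    rw [γ, map_add, map_mul, map_natCast, map_natCast]
    ring
  rw [ω, γ₀, map_mul, map_natCast, D.hl', sum_congr rfl fun i _ => h i, sum_add_distrib,
    ← mul_sum]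
  ring

theorem ω_sub (x y : Idx N L) : D.ω x - D.ω y =
    (((x.2.2 : ℕ) : ℂ) - ((y.2.2 : ℕ) : ℂ)) * D.l' +
      ∑ i, (((x.2.1 i : ℕ) : ℂ) - ((y.2.1 i : ℕ) : ℂ)) * D.l i := by
  simp only [ω, sub_mul, sum_sub_distrib]
  ring

/-- linear relations between differences of `ω` -/
theorem lin {x y z : Idx N L} {r s : ℤ}
    (h : (r : ℂ) * (D.ω x - D.ω y) = s * (D.ω z - D.ω y)) :
    r * (((x.2.2 : ℕ) : ℤ) - ((y.2.2 : ℕ) : ℤ)) = s * (((z.2.2 : ℕ) : ℤ) - ((y.2.2 : ℕ) : ℤ)) ∧
    ∀ i, r * (((x.2.1 i : ℕ) : ℤ) - ((y.2.1 i : ℕ) : ℤ)) =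
      s * (((z.2.1 i : ℕ) : ℤ) - ((y.2.1 i : ℕ) : ℤ)) := by
  obtain ⟨h1, h2⟩ := D.hind
    (fun i => r * (((x.2.1 i : ℕ) : ℤ) - ((y.2.1 i : ℕ) : ℤ)) -
      s * (((z.2.1 i : ℕ) : ℤ) - ((y.2.1 i : ℕ) : ℤ)))
    (r * (((x.2.2 : ℕ) : ℤ) - ((y.2.2 : ℕ) : ℤ)) - s * (((z.2.2 : ℕ) : ℤ) - ((y.2.2 : ℕ) : ℤ)))
    (by
      rw [D.ω_sub x y, D.ω_sub z y] at h
      push_cast
      have e : ∀ i, ((r : ℂ) * (((x.2.1 i : ℕ) : ℂ) - ((y.2.1 i : ℕ) : ℂ)) -
          s * (((z.2.1 i : ℕ) : ℂ) - ((y.2.1 i : ℕ) : ℂ))) * D.l i =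
          r * ((((x.2.1 i : ℕ) : ℂ) - ((y.2.1 i : ℕ) : ℂ)) * D.l i) -
          s * ((((z.2.1 i : ℕ) : ℂ) - ((y.2.1 i : ℕ) : ℂ)) * D.l i) := fun i => by ring
      rw [sum_congr rfl fun i _ => e i, sum_sub_distrib, ← mul_sum, ← mul_sum]
      linear_combination h)
  exact ⟨sub_eq_zero.mp h2, fun i => sub_eq_zero.mp (congrFun h1 i)⟩

theorem eq_of_ω {x y : Idx N L} (h1 : x.1 = y.1) (h : D.ω x = D.ω y) : x = y := by
  obtain ⟨h2, h3⟩ := D.lin (x := x) (y := y) (z := y) (r := 1) (s := 0) (by rw [h]; simp)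
  refine Prod.ext h1 (Prod.ext (funext fun i => ?_) ?_)
  · have := h3 i
    refine Fin.ext ?_
    omega
  · refine Fin.ext ?_
    omega

/-- a function which is linear in the coordinates -/
def IsLin (G : Idx N L → K) : Prop :=
  ∃ (c' : K) (c : Fin N → K), ∀ x : Idx N L,
    G x = c' * ((x.2.2 : ℕ) : K) + ∑ i, c i * ((x.2.1 i : ℕ) : K)

theorem IsLin.relation {G : Idx N L → K} (hG : IsLin G) {x y z : Idx N L} {r s : ℤ}
    (h : (r : ℂ) * (D.ω x - D.ω y) = s * (D.ω z - D.ω y)) :
    (r : K) * (G x - G y) = s * (G z - G y) := by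
  obtain ⟨c', c, hc⟩ := hG
  obtain ⟨h1, h2⟩ := D.lin h
  have h1' := congrArg (Int.cast : ℤ → K) h1
  push_cast at h1'
  have h2' : ∀ i, (r : K) * (((x.2.1 i : ℕ) : K) - ((y.2.1 i : ℕ) : K)) =
      s * (((z.2.1 i : ℕ) : K) - ((y.2.1 i : ℕ) : K)) := by
    intro i
    have := congrArg (Int.cast : ℤ → K) (h2 i)
    push_cast at this
    exact this
  have h3 : (r : K) * (∑ i, c i * ((x.2.1 i : ℕ) : K) - ∑ i, c i * ((y.2.1 i : ℕ) : K)) =
      s * (∑ i, c i * ((z.2.1 i : ℕ) : K) - ∑ i, c i * ((y.2.1 i : ℕ) : K)) := by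
    rw [← sum_sub_distrib, ← sum_sub_distrib, mul_sum, mul_sum]
    refine sum_congr rfl fun i _ => ?_
    linear_combination c i * h2' i
  rw [hc x, hc y, hc z]
  linear_combination c' * h1' + h3

end Dat

/-- **(B1)** a function with sufficiently many zeros is zero -/
theorem vanishStmt : VanishStmt := by
  classical
  intro N K _ _ D L S T hL hLS hLT p hF
  -- the fibres of `A`
  have hstep : ∀ m : ℕ × (Fin N → ℕ), ord m < T → ∀ w : K,
      ∑ x ∈ univ.filter (fun x : Idx N L => D.A x = w),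
        Polynomial.C (p x * ∏ i, D.γ x i ^ m.2 i) * qp (D.γ₀ x) x.1 m.1 = 0 := by
    intro m hm w
    set P : K → K[X] := fun w => ∑ x ∈ univ.filter (fun x : Idx N L => D.A x = w),
        Polynomial.C (p x * ∏ i, D.γ x i ^ m.2 i) * qp (D.γ₀ x) x.1 m.1 with hP
    set W : Finset K := univ.image (fun x : Idx N L => D.A x) with hW
    have hW0 : ∀ w ∈ W, w ≠ 0 := by
      intro w hw
      obtain ⟨x, -, rfl⟩ := mem_image.mp hw
      exact D.A_ne_zero x
    have hcardW : #W ≤ L ^ (N + 1) := by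
      have h1 : W ⊆ univ.image (fun y : (Fin N → Fin L) × Fin L =>
          D.α' ^ (y.2 : ℕ) * ∏ i, D.α i ^ (y.1 i : ℕ)) := by
        intro w hw
        obtain ⟨x, -, rfl⟩ := mem_image.mp hw
        exact mem_image.mpr ⟨x.2, mem_univ _, rfl⟩
      refine (card_le_card h1).trans (card_image_le.trans ?_)
      rw [card_univ, Fintype.card_prod, Fintype.card_fun, Fintype.card_fin, Fintype.card_fin,
        pow_succ]
    have hdeg : ∀ w, (P w).degree < ((L : ℕ) : WithBot ℕ) := by
      intro w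
      rw [← mem_degreeLT]
      refine Submodule.sum_mem _ fun x _ => ?_
      rw [mem_degreeLT]
      refine lt_of_le_of_lt (degree_mul_le _ _) ?_
      refine lt_of_le_of_lt (add_le_add degree_C_le degree_le_natDegree) ?_
      rw [zero_add]
      exact_mod_cast (natDegree_qp_le _ _ _).trans_lt x.1.2
    have hv := vandermonde hW0 (#W * L) (fun _ => L) (fun w => Polynomial.C w * P w) 1
      (by rw [sum_const, smul_eq_mul]) (by
        intro w hw
        rw [degree_C_mul (hW0 w hw)]
        exact hdeg w) (by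
        intro i hi
        have hi' : i + 1 ≤ S := by
          have h1 : #W * L ≤ L ^ (N + 2) := by
            rw [pow_succ]
            exact Nat.mul_le_mul_right L hcardW
          omega
        have h1 := hF m hm (i + 1) (by omega) hi'
        rw [Dat.F, ← sum_fiberwise_of_maps_to
          (fun x _ => mem_image_of_mem (fun x : Idx N L => D.A x) (mem_univ x))] at h1
        rw [← h1]
        refine sum_congr rfl fun w hw => ?_
        rw [hP]
        simp only
        rw [mul_sum, eval_finsetSum, sum_mul]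
        refine sum_congr rfl fun x hx => ?_
        have hx' : D.A x = w := (mem_filter.mp hx).2
        rw [eval_mul, eval_mul, eval_C, eval_C, hx', Nat.cast_succ, add_comm (1 : K) (i : K)]
        ring)
    by_cases hw : w ∈ W
    · have h1 := hv w hw
      exact (mul_eq_zero.mp h1).resolve_left (C_ne_zero.mpr (hW0 w hw))
    · have h1 : univ.filter (fun x : Idx N L => D.A x = w) = ∅ := by
        rw [filter_eq_empty_iff]
        intro x _ hx
        exact hw (mem_image.mpr ⟨x, mem_univ x, hx⟩)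
      rw [h1, sum_empty]
  -- a coefficient of maximal order
  by_contra hp
  obtain ⟨x₀, hx₀⟩ : ∃ x, p x ≠ 0 := by
    by_contra h
    push Not at h
    exact hp (funext h)
  obtain ⟨x', hx', hmax⟩ := exists_max_image (univ.filter (fun x : Idx N L => p x ≠ 0))
    (fun x => (x.1 : ℕ)) ⟨x₀, mem_filter.mpr ⟨mem_univ _, hx₀⟩⟩
  have hpx' : p x' ≠ 0 := (mem_filter.mp hx').2
  have hmax' : ∀ x, p x ≠ 0 → (x.1 : ℕ) ≤ x'.1 := fun x hx =>
    hmax x (mem_filter.mpr ⟨mem_univ _, hx⟩)
  set Cl : Finset (Idx N L) :=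
    (univ.filter (fun x : Idx N L => D.A x = D.A x')).filter (fun x => x.1 = x'.1) with hCl
  have hCl_iff : ∀ x, x ∈ Cl ↔ D.A x = D.A x' ∧ x.1 = x'.1 := by
    intro x
    rw [hCl, mem_filter, mem_filter]
    simp only [mem_univ, true_and]
  have hxC : x' ∈ Cl := (hCl_iff x').mpr ⟨rfl, rfl⟩
  have hC : ∀ m : ℕ × (Fin N → ℕ), ord m < T →
      ∑ x ∈ Cl, p x * (D.γ₀ x ^ m.1 * ∏ i, D.γ x i ^ m.2 i) = 0 := by
    intro m hm
    have h1 := congrArg (fun Q : K[X] => Q.coeff (x'.1 : ℕ)) (hstep m hm (D.A x'))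
    simp only [finsetSum_coeff, coeff_zero] at h1
    rw [← sum_filter_of_ne (p := fun x : Idx N L => x.1 = x'.1)] at h1
    · rw [← h1]
      refine sum_congr rfl fun x hx => ?_
      have hx1 : x.1 = x'.1 := ((hCl_iff x).mp hx).2
      rw [coeff_C_mul, ← hx1, coeff_qp]
      ring
    · intro x _ hne
      by_contra h2
      apply hne
      rw [coeff_C_mul]
      by_cases h3 : p x = 0
      · rw [h3, zero_mul, zero_mul]
      · have h4 : (x.1 : ℕ) < x'.1 := lt_of_le_of_ne (hmax' x h3) fun h5 => h2 (Fin.ext h5)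
        rw [coeff_qp_of_lt _ _ h4, mul_zero]
  -- logarithms
  have hlog : ∀ x ∈ Cl, ∃ t : ℤ, D.ω x = D.ω x' + t * (2 * Real.pi * Complex.I) := by
    intro x hx
    refine Complex.exp_eq_exp_iff_exists_int.mp ?_
    rw [← D.σ_A, ← D.σ_A, ((hCl_iff x).mp hx).1]
  choose! t ht using hlog
  by_cases hone : ∀ x ∈ Cl, x = x'
  · have h1 := hC (0, 0) (by
      rw [ord]
      simp only [Pi.zero_apply, sum_const_zero, add_zero]
      omega)
    rw [sum_eq_single_of_mem x' hxC fun x hx hxx => absurd (hone x hx) hxx] at h1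
    simp only [pow_zero, Pi.zero_apply, prod_const_one, mul_one] at h1
    exact hpx' h1
  push Not at hone
  obtain ⟨y, hyC, hyx⟩ := hone
  have hy1 : y.1 = x'.1 := ((hCl_iff y).mp hyC).2
  -- linear functions which separate `y` and `x'` are injective on the class
  have hinj : ∀ G : Idx N L → K, Dat.IsLin G → G y ≠ G x' → Set.InjOn G Cl := by
    intro G hG hne x hx z hz hxz
    have h1 : ∀ v ∈ Cl, (t y : K) * (G v - G x') = t v * (G y - G x') := by
      intro v hv
      refine Dat.IsLin.relation D hG ?_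
      rw [ht v hv, ht y hyC]
      ring
    have h2 := h1 x hx
    have h3 := h1 z hz
    rw [hxz, h3] at h2
    have h4 : (t z : K) = t x := mul_right_cancel₀ (sub_ne_zero.mpr hne) h2
    have h5 : t z = t x := by exact_mod_cast h4
    refine D.eq_of_ω (((hCl_iff x).mp hx).2.trans ((hCl_iff z).mp hz).2.symm) ?_
    rw [ht x hx, ht z hz, h5]
  -- the class has at most `L` elements
  have hcard : #Cl ≤ L := by
    have h1 : ∃ κ : Idx N L → Fin L, Set.InjOn κ Cl := by
      by_cases h2 : y.2.2 = x'.2.2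
      · obtain ⟨i, hi⟩ : ∃ i, y.2.1 i ≠ x'.2.1 i := by
          by_contra h3
          push Not at h3
          exact hyx (Prod.ext hy1 (Prod.ext (funext h3) h2))
        refine ⟨fun x => x.2.1 i, ?_⟩
        have h3 := hinj (fun x => ((x.2.1 i : ℕ) : K)) ⟨0, Pi.single i 1, fun x => by
          rw [zero_mul, zero_add, sum_eq_single_of_mem i (mem_univ i)
            fun j _ hj => by rw [Pi.single_eq_of_ne hj, zero_mul], Pi.single_eq_same, one_mul]⟩
          (fun h => hi (Fin.ext (Nat.cast_injective h)))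
        intro x hx z hz hxz
        exact h3 hx hz (congrArg (fun k : Fin L => ((k : ℕ) : K)) hxz)
      · refine ⟨fun x => x.2.2, ?_⟩
        have h3 := hinj (fun x => ((x.2.2 : ℕ) : K)) ⟨1, 0, fun x => by
          rw [one_mul]
          simp⟩ (fun h => h2 (Fin.ext (Nat.cast_injective h)))
        intro x hx z hz hxz
        exact h3 hx hz (congrArg (fun k : Fin L => ((k : ℕ) : K)) hxz)
    obtain ⟨κ, hκ⟩ := h1
    have h2 := card_le_card_of_injOn (t := univ) κ (fun _ _ => mem_univ _) hκ
    rwa [card_univ, Fintype.card_fin] at h2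
  -- one of the `γ` separates
  obtain ⟨G, hG, hne, hpow⟩ : ∃ G : Idx N L → K, Dat.IsLin G ∧ G y ≠ G x' ∧
      ∀ j < T, ∑ x ∈ Cl, p x * G x ^ j = 0 := by
    by_cases h0 : D.γ₀ y = D.γ₀ x'
    · obtain ⟨i, hi⟩ : ∃ i, D.γ y i ≠ D.γ x' i := by
        by_contra h1
        push Not at h1
        refine hyx (D.eq_of_ω hy1 ?_)
        rw [D.ω_eq, D.ω_eq, h0, sum_congr rfl fun i _ => by rw [h1 i]]
      refine ⟨fun x => D.γ x i, ⟨D.β i, Pi.single i 1, fun x => ?_⟩, hi, fun j hj => ?_⟩
      · have h2 : D.γ x i = ((x.2.1 i : ℕ) : K) + ((x.2.2 : ℕ) : K) * D.β i := rfl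
        rw [sum_eq_single_of_mem i (mem_univ i)
          fun j _ hj => by rw [Pi.single_eq_of_ne hj, zero_mul], Pi.single_eq_same, one_mul]
        refine Eq.trans h2 ?_
        ring
      · have h1 := hC (0, fun k => if k = i then j else 0) (by
          rw [ord]
          simp only [zero_add]
          rw [sum_eq_single_of_mem i (mem_univ i) fun k _ hk => if_neg hk, if_pos rfl]
          exact hj)
        rw [← h1]
        refine sum_congr rfl fun x _ => ?_
        have h2 : ∏ k, D.γ x k ^ (if k = i then j else 0) = D.γ x i ^ j := by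
          rw [prod_eq_single_of_mem i (mem_univ i) fun k _ hk => by rw [if_neg hk, pow_zero],
            if_pos rfl]
        simp only [pow_zero, one_mul]
        rw [h2]
    · refine ⟨D.γ₀, ⟨D.β₀, 0, fun x => ?_⟩, h0, fun j hj => ?_⟩
      · rw [Dat.γ₀]
        simp [mul_comm]
      · have h1 := hC (j, 0) (by
          rw [ord]
          simp only [Pi.zero_apply, sum_const_zero, add_zero]
          exact hj)
        rw [← h1]
        refine sum_congr rfl fun x _ => ?_
        simp only [Pi.zero_apply, pow_zero, prod_const_one, mul_one]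
  exact hpx' (eq_zero_of_power_sums (hinj G hG hne) (hcard.trans hLT) hpow hxC)

end Fermat.Agent.Cor.Baker
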