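import Fermat.Agent.Corollaries.Baker.Core
import Fermat.Agent.Corollaries.Baker.Vanish
import Fermat.Agent.Corollaries.GS.Main

/-!
# Baker's theorem on linear forms in logarithms of algebraic numbers
-/

set_option autoImplicit false

open Finset NumberField

namespace Fermat.Agent.Cor.Baker

/-- one relation, `n` logarithms -/
theorem relation_fin {n : ℕ} {l : Fin n → ℂ} (hl : ∀ i, IsAlgebraic ℚ (Complex.exp (l i)))
    (hind : LinearIndependent ℚ l) {b₀ : ℂ} {b : Fin n → ℂ} (hb₀ : IsAlgebraic ℚ b₀)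
    (hb : ∀ i, IsAlgebraic ℚ (b i)) (h : b₀ + ∑ i, b i * l i = 0) :
    b₀ = 0 ∧ ∀ i, b i = 0 := by
  classical
  by_cases hall : ∀ i, b i = 0
  · refine ⟨?_, hall⟩
    simpa [hall] using h
  exfalso
  push Not at hall
  obtain ⟨j, hj⟩ := hall
  obtain ⟨N, rfl⟩ : ∃ N, n = N + 1 := ⟨n - 1, by have := j.isLt; omega⟩
  set β₀ : ℂ := -(b₀ / b j) with hβ₀
  set β : Fin N → ℂ := fun i => -(b (j.succAbove i) / b j) with hβ
  set S : Set ℂ := Set.range (fun i => Complex.exp (l i)) ∪ Set.range β ∪ {β₀} with hS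
  have aβ₀ : IsAlgebraic ℚ β₀ := by
    rw [hβ₀, div_eq_mul_inv]
    exact (hb₀.mul (hb j).inv).neg
  have aβ : ∀ i, IsAlgebraic ℚ (β i) := by
    intro i
    simp only [hβ, div_eq_mul_inv]
    exact ((hb _).mul (hb j).inv).neg
  have hfin : FiniteDimensional ℚ (IntermediateField.adjoin ℚ S) := by
    refine IntermediateField.finiteDimensional_adjoin fun x hx => ?_
    rcases hx with (⟨i, rfl⟩ | ⟨i, rfl⟩) | hx
    · exact (hl i).isIntegral
    · exact (aβ i).isIntegral
    · rw [Set.mem_singleton_iff.mp hx]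
      exact aβ₀.isIntegral
  have hnf : NumberField (IntermediateField.adjoin ℚ S) := ⟨⟩
  have m1 : ∀ i, Complex.exp (l i) ∈ IntermediateField.adjoin ℚ S := fun i =>
    IntermediateField.subset_adjoin ℚ S (Or.inl (Or.inl ⟨i, rfl⟩))
  have m2 : ∀ i, β i ∈ IntermediateField.adjoin ℚ S := fun i =>
    IntermediateField.subset_adjoin ℚ S (Or.inl (Or.inr ⟨i, rfl⟩))
  have m3 : β₀ ∈ IntermediateField.adjoin ℚ S :=
    IntermediateField.subset_adjoin ℚ S (Or.inr rfl)
  have hrel : l j = β₀ + ∑ i, β i * l (j.succAbove i) := by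
    rw [Fin.sum_univ_succAbove _ j] at h
    have h1 : ∑ i, β i * l (j.succAbove i) = -(∑ i, b (j.succAbove i) * l (j.succAbove i)) / b j := by
      rw [← sum_neg_distrib, sum_div]
      refine sum_congr rfl fun i _ => ?_
      simp only [hβ]
      ring
    rw [h1, hβ₀]
    field_simp
    linear_combination h
  exact Dat.false_of vanishStmt (N := N) (K := IntermediateField.adjoin ℚ S)
    { σ := algebraMap _ ℂ
      l := fun i => l (j.succAbove i)
      l' := l j
      α := fun i => ⟨_, m1 (j.succAbove i)⟩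
      α' := ⟨_, m1 j⟩
      β₀ := ⟨_, m3⟩
      β := fun i => ⟨_, m2 i⟩
      hα := fun _ => rfl
      hα' := rfl
      hl' := hrel
      hind := by
        intro a c hac
        rw [Fintype.linearIndependent_iff] at hind
        have h1 := hind (j.insertNth (c : ℚ) (fun i => (a i : ℚ))) (by
          rw [Fin.sum_univ_succAbove _ j]
          simp only [Fin.insertNth_apply_same, Fin.insertNth_apply_succAbove, Rat.smul_def,
            Rat.cast_intCast]
          exact hac)
        constructor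
        · funext i
          have h2 := h1 (j.succAbove i)
          rw [Fin.insertNth_apply_succAbove] at h2
          exact_mod_cast h2
        · have h2 := h1 j
          rw [Fin.insertNth_apply_same] at h2
          exact_mod_cast h2 }

/-- one relation, a finite set of logarithms -/
theorem relation_finset {ι : Type*} (t : Finset ι) {l : ι → ℂ}
    (hl : ∀ i, IsAlgebraic ℚ (Complex.exp (l i))) (hind : LinearIndependent ℚ l) {b₀ : ℂ}
    {b : ι → ℂ} (hb₀ : IsAlgebraic ℚ b₀) (hb : ∀ i ∈ t, IsAlgebraic ℚ (b i))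
    (h : b₀ + ∑ i ∈ t, b i * l i = 0) : b₀ = 0 ∧ ∀ i ∈ t, b i = 0 := by
  classical
  let e := t.equivFin
  have h1 := relation_fin (l := fun i => l (e.symm i)) (fun i => hl _)
    (hind.comp (fun i => ((e.symm i : t) : ι)) (Subtype.val_injective.comp e.symm.injective))
    (b := fun i => b (e.symm i)) hb₀ (fun i => hb _ (e.symm i).2) (by
      rw [← h]
      congr 1
      rw [← sum_coe_sort t (fun i => b i * l i)]
      exact (e.symm.sum_comp (fun i : t => b i * l i)))
  refine ⟨h1.1, fun i hi => ?_⟩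
  have h2 := h1.2 (e ⟨i, hi⟩)
  simpa using h2

/-- the homogeneous form of Baker's theorem: logarithms of algebraic numbers which are linearly
independent over `ℚ` are linearly independent over the algebraic numbers -/
theorem linearIndependent_log {ι : Type*} {l : ι → ℂ}
    (hl : ∀ i, IsAlgebraic ℚ (Complex.exp (l i))) (hind : LinearIndependent ℚ l) :
    LinearIndependent (algebraicClosure ℚ ℂ) l := by
  rw [linearIndependent_iff']
  intro t g hg i hi
  have h1 := (relation_finset t hl hind (b₀ := 0) (b := fun i => (g i : ℂ)) isAlgebraic_zero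
    (fun i _ => mem_algebraicClosure_iff.mp (g i).2) (by
      rw [zero_add, ← hg]
      rfl)).2 i hi
  exact_mod_cast h1

/-- `1` is not a linear combination of logarithms of algebraic numbers -/
theorem one_notMem_span {ι : Type*} {l : ι → ℂ}
    (hl : ∀ i, IsAlgebraic ℚ (Complex.exp (l i))) (hind : LinearIndependent ℚ l) :
    (1 : ℂ) ∉ Submodule.span (algebraicClosure ℚ ℂ) (Set.range l) := by
  classical
  intro h
  obtain ⟨c, hc⟩ := (Finsupp.mem_span_range_iff_exists_finsupp).mp h
  have h1 := (relation_finset c.support hl hind (b₀ := -1) (b := fun i => (c i : ℂ))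
    (isAlgebraic_one.neg) (fun i _ => mem_algebraicClosure_iff.mp (c i).2) (by
      rw [neg_add_eq_zero, ← hc]
      rfl)).1
  norm_num at h1

/-- **Baker's theorem** (1966, 1967): `l i` logarithms of algebraic numbers, linearly independent
over `ℚ`; then `1` and the `l i` are linearly independent over the algebraic numbers. -/
theorem baker {ι : Type*} {l : ι → ℂ} (hl : ∀ i, IsAlgebraic ℚ (Complex.exp (l i)))
    (hind : LinearIndependent ℚ l) :
    LinearIndependent (algebraicClosure ℚ ℂ) (fun o : Option ι => (o.elim 1 l : ℂ)) := by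
  rw [linearIndependent_option]
  exact ⟨linearIndependent_log hl hind, one_notMem_span hl hind⟩

/-- every linear form in logarithms of algebraic numbers with algebraic coefficients is zero or
transcendental -/
theorem eq_zero_or_transcendental {t : Set ℂ} (ht : ∀ l ∈ t, IsAlgebraic ℚ (Complex.exp l)) {Λ : ℂ}
    (hΛ : Λ ∈ Submodule.span (algebraicClosure ℚ ℂ) t) : Λ = 0 ∨ Transcendental ℚ Λ := by
  by_contra hcon
  push Not at hcon
  obtain ⟨h0, h1⟩ := hcon
  have h1' : IsAlgebraic ℚ Λ := by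
    by_contra h
    exact h1 h
  obtain ⟨b, hbt, hspan, hb⟩ := exists_linearIndependent ℚ t
  have h2 : Submodule.span (algebraicClosure ℚ ℂ) t ≤
      Submodule.span (algebraicClosure ℚ ℂ) (Set.range ((↑) : b → ℂ)) := by
    rw [Submodule.span_le]
    intro x hx
    have h3 : x ∈ Submodule.span ℚ b := by
      rw [hspan]
      exact Submodule.subset_span hx
    rw [Subtype.range_coe]
    exact Submodule.span_subset_span ℚ (algebraicClosure ℚ ℂ) b h3
  have h3 := h2 hΛ
  refine one_notMem_span (l := ((↑) : b → ℂ)) (fun i => ht _ (hbt i.2)) hb ?_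
  have h4 : (1 : ℂ) = (⟨Λ, mem_algebraicClosure_iff.mpr h1'⟩⁻¹ : algebraicClosure ℚ ℂ) • Λ := by
    show (1 : ℂ) = Λ⁻¹ * Λ
    rw [inv_mul_cancel₀ h0]
  rw [h4]
  exact Submodule.smul_mem _ _ h3

/-- the form with sums -/
theorem sum_eq_zero_or_transcendental {ι : Type*} (s : Finset ι) {β l : ι → ℂ}
    (hβ : ∀ i ∈ s, IsAlgebraic ℚ (β i)) (hl : ∀ i ∈ s, IsAlgebraic ℚ (Complex.exp (l i))) :
    ∑ i ∈ s, β i * l i = 0 ∨ Transcendental ℚ (∑ i ∈ s, β i * l i) := by
  refine eq_zero_or_transcendental (t := l '' s) ?_ ?_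
  · rintro _ ⟨i, hi, rfl⟩
    exact hl i hi
  · refine Submodule.sum_mem _ fun i hi => ?_
    exact Submodule.smul_mem (Submodule.span (algebraicClosure ℚ ℂ) (l '' s))
      (⟨β i, mem_algebraicClosure_iff.mpr (hβ i hi)⟩ : algebraicClosure ℚ ℂ)
      (Submodule.subset_span ⟨i, hi, rfl⟩)

/-- `e ^ β₀ α₁ ^ β₁ ... αₙ ^ βₙ` is transcendental if `β₀ ≠ 0` -/
theorem transcendental_exp_add_sum {ι : Type*} (s : Finset ι) {β₀ : ℂ} {β l : ι → ℂ}
    (hβ₀ : IsAlgebraic ℚ β₀) (h0 : β₀ ≠ 0) (hβ : ∀ i ∈ s, IsAlgebraic ℚ (β i))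
    (hl : ∀ i ∈ s, IsAlgebraic ℚ (Complex.exp (l i))) :
    Transcendental ℚ (Complex.exp (β₀ + ∑ i ∈ s, β i * l i)) := by
  intro hγ
  set Λ : ℂ := β₀ + ∑ i ∈ s, β i * l i with hΛ
  have h1 : β₀ ∈ Submodule.span (algebraicClosure ℚ ℂ) (insert Λ (l '' s)) := by
    have h2 : β₀ = Λ - ∑ i ∈ s, β i * l i := by
      rw [hΛ]
      ring
    rw [h2]
    refine Submodule.sub_mem _ (Submodule.subset_span (Set.mem_insert _ _))
      (Submodule.sum_mem _ fun i hi => ?_)
    exact Submodule.smul_mem (Submodule.span (algebraicClosure ℚ ℂ) (insert Λ (l '' s)))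
      (⟨β i, mem_algebraicClosure_iff.mpr (hβ i hi)⟩ : algebraicClosure ℚ ℂ)
      (Submodule.subset_span (Or.inr ⟨i, hi, rfl⟩))
  rcases eq_zero_or_transcendental (t := insert Λ (l '' s)) (by
    rintro x (rfl | ⟨i, hi, rfl⟩)
    · exact hγ
    · exact hl i hi) h1 with h | h
  · exact h0 h
  · exact h hβ₀

/-- the tensor form: `β i` algebraic and linearly independent over `ℚ`, `l i` logarithms of
algebraic numbers, not all zero; then `∑ β i l i ≠ 0` -/
theorem eq_zero_of_sum_eq_zero {ι : Type*} [Fintype ι] {β l : ι → ℂ}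
    (hβ : ∀ i, IsAlgebraic ℚ (β i)) (hβi : LinearIndependent ℚ β)
    (hl : ∀ i, IsAlgebraic ℚ (Complex.exp (l i))) (h : ∑ i, β i * l i = 0) (i : ι) : l i = 0 := by
  classical
  obtain ⟨b, hbt, hspan, hb⟩ := exists_linearIndependent ℚ (Set.range l)
  have h1 : ∀ i, ∃ q : b →₀ ℚ, (q.sum fun e a => a • (e : ℂ)) = l i := by
    intro i
    have h2 : l i ∈ Submodule.span ℚ (Set.range ((↑) : b → ℂ)) := by
      rw [Subtype.range_coe, hspan]
      exact Submodule.subset_span ⟨i, rfl⟩
    exact (Finsupp.mem_span_range_iff_exists_finsupp).mp h2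
  choose q hq using h1
  -- the finite set of all basis elements which occur
  set t : Finset b := univ.biUnion fun i => (q i).support with ht
  have hq' : ∀ i, l i = ∑ e ∈ t, (q i e : ℂ) * (e : ℂ) := by
    intro i
    rw [← hq i, Finsupp.sum_of_support_subset (q i) (s := t)
      (fun e he => mem_biUnion.mpr ⟨i, mem_univ i, he⟩) _ (fun e _ => by simp)]
    exact sum_congr rfl fun e _ => Rat.smul_def _ _
  have h2 : (0 : ℂ) + ∑ e ∈ t, (∑ i, β i * (q i e : ℂ)) * (e : ℂ) = 0 := by
    rw [zero_add, ← h]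
    simp only [sum_mul]
    rw [sum_comm]
    refine sum_congr rfl fun i _ => ?_
    rw [hq' i, mul_sum]
    exact sum_congr rfl fun e _ => by ring
  have h3 := (relation_finset t (l := ((↑) : b → ℂ)) (fun e => by
      obtain ⟨j, hj⟩ := hbt e.2
      rw [← hj]
      exact hl j) hb (b := fun e => ∑ i, β i * (q i e : ℂ)) isAlgebraic_zero (fun e _ => by
      refine (IsIntegral.sum _ fun i _ => IsAlgebraic.isIntegral ((hβ i).mul ?_)).isAlgebraic
      exact isAlgebraic_algebraMap (A := ℂ) (q i e)) h2).2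
  rw [hq' i]
  refine sum_eq_zero fun e he => ?_
  have h4 := h3 e he
  rw [Fintype.linearIndependent_iff] at hβi
  have h5 := hβi (fun i => q i e) (by
    rw [← h4]
    exact sum_congr rfl fun i _ => by rw [Rat.smul_def, mul_comm]) i
  rw [h5]
  simp

/-- `α₁ ^ β₁ ... αₙ ^ βₙ` is transcendental if the algebraic numbers `1, β₁, ..., βₙ` are linearly
independent over `ℚ` and a logarithm is not `0` -/
theorem transcendental_exp_sum {ι : Type*} [Fintype ι] {β l : ι → ℂ}
    (hβ : ∀ i, IsAlgebraic ℚ (β i))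
    (hβi : LinearIndependent ℚ (fun o : Option ι => (o.elim 1 β : ℂ)))
    (hl : ∀ i, IsAlgebraic ℚ (Complex.exp (l i))) {j : ι} (hj : l j ≠ 0) :
    Transcendental ℚ (Complex.exp (∑ i, β i * l i)) := by
  intro hγ
  have h1 := eq_zero_of_sum_eq_zero (ι := Option ι) (β := fun o => (o.elim 1 β : ℂ))
    (l := fun o => o.elim (-(∑ i, β i * l i)) l) (by
      rintro (_ | i)
      · exact isAlgebraic_one
      · exact hβ i) hβi (by
      rintro (_ | i)
      · show IsAlgebraic ℚ (Complex.exp (-(∑ i, β i * l i)))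
        rw [Complex.exp_neg]
        exact hγ.inv
      · exact hl i) (by
      rw [Fintype.sum_option]
      simp) (some j)
  exact hj h1

/-- `π + l` is transcendental for every logarithm `l` of an algebraic number (`l = 0`: `π`) -/
theorem transcendental_pi_add {l : ℂ} (hl : IsAlgebraic ℚ (Complex.exp l)) :
    Transcendental ℚ ((Real.pi : ℂ) + l) := by
  have hI : IsAlgebraic ℚ (-Complex.I) := by
    refine IsAlgebraic.neg (IsAlgebraic.of_pow two_pos ?_)
    rw [Complex.I_sq]
    exact_mod_cast isAlgebraic_intCast (R := ℚ) (A := ℂ) (-1)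
  have hpi : (Real.pi : ℂ) = (-Complex.I) * (Real.pi * Complex.I) := by
    linear_combination (Real.pi : ℂ) * Complex.I_mul_I
  have h1 : (Real.pi : ℂ) + l ∈ Submodule.span (algebraicClosure ℚ ℂ)
      ({Real.pi * Complex.I, l} : Set ℂ) := by
    refine Submodule.add_mem _ ?_ (Submodule.subset_span (Or.inr rfl))
    have h2 : (⟨-Complex.I, mem_algebraicClosure_iff.mpr hI⟩ : algebraicClosure ℚ ℂ) •
        ((Real.pi : ℂ) * Complex.I) ∈ Submodule.span (algebraicClosure ℚ ℂ)
        ({(Real.pi : ℂ) * Complex.I, l} : Set ℂ) :=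
      Submodule.smul_mem _ _ (Submodule.subset_span (Or.inl rfl))
    have h3 : (⟨-Complex.I, mem_algebraicClosure_iff.mpr hI⟩ : algebraicClosure ℚ ℂ) •
        ((Real.pi : ℂ) * Complex.I) = (Real.pi : ℂ) := hpi.symm
    rwa [h3] at h2
  rcases eq_zero_or_transcendental (by
    rintro x (rfl | hx)
    · rw [Complex.exp_pi_mul_I]
      exact_mod_cast isAlgebraic_intCast (R := ℚ) (A := ℂ) (-1)
    · rw [Set.mem_singleton_iff.mp hx]
      exact hl) h1 with h | h
  · exfalso
    have h2 : Complex.exp l = ((Real.exp Real.pi)⁻¹ : ℝ) := by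
      have h3 : l = -(Real.pi : ℂ) := by linear_combination h
      rw [h3, Complex.exp_neg]
      push_cast
      rfl
    rw [h2] at hl
    have h3 : IsAlgebraic ℚ ((Real.exp Real.pi)⁻¹) :=
      (isAlgebraic_algebraMap_iff (A := ℂ) (RingHom.injective (algebraMap ℝ ℂ))).mp hl
    exact GS.transcendental_exp_pi (by simpa using h3.inv)
  · exact h

/-- `log 2 + π / √3` is transcendental (three times the integral of `1 / (1 + x ^ 3)` over
`[0, 1]`) -/
theorem transcendental_log_two_add : Transcendental ℚ (Real.log 2 + Real.pi / Real.sqrt 3) := by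
  have h3 : IsAlgebraic ℚ (Real.sqrt 3) := by exact_mod_cast GS.isAlgebraic_sqrt 3
  have hI : IsAlgebraic ℚ (-Complex.I) := by
    refine IsAlgebraic.neg (IsAlgebraic.of_pow two_pos ?_)
    rw [Complex.I_sq]
    exact_mod_cast isAlgebraic_intCast (R := ℚ) (A := ℂ) (-1)
  have h3' : IsAlgebraic ℚ ((Real.sqrt 3 : ℝ) : ℂ)⁻¹ := (h3.algebraMap (A := ℂ)).inv
  have h1 := sum_eq_zero_or_transcendental (univ : Finset (Fin 2))
    (β := ![1, -Complex.I * ((Real.sqrt 3 : ℝ) : ℂ)⁻¹])
    (l := ![((Real.log 2 : ℝ) : ℂ), Real.pi * Complex.I]) (by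
      intro i _
      fin_cases i
      · exact isAlgebraic_one
      · exact hI.mul h3') (by
      intro i _
      fin_cases i
      · show IsAlgebraic ℚ (Complex.exp ((Real.log 2 : ℝ) : ℂ))
        rw [← Complex.ofReal_exp, Real.exp_log two_pos]
        exact_mod_cast isAlgebraic_natCast (R := ℚ) (A := ℂ) 2
      · show IsAlgebraic ℚ (Complex.exp (Real.pi * Complex.I))
        rw [Complex.exp_pi_mul_I]
        exact_mod_cast isAlgebraic_intCast (R := ℚ) (A := ℂ) (-1))
  have h2 : ∑ i : Fin 2, (![1, -Complex.I * ((Real.sqrt 3 : ℝ) : ℂ)⁻¹] : Fin 2 → ℂ) i *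
      (![((Real.log 2 : ℝ) : ℂ), Real.pi * Complex.I] : Fin 2 → ℂ) i =
      ((Real.log 2 + Real.pi / Real.sqrt 3 : ℝ) : ℂ) := by
    rw [Fin.sum_univ_two]
    simp only [Matrix.cons_val_zero, Matrix.cons_val_one]
    push_cast
    linear_combination (-(Real.pi : ℂ) * ((Real.sqrt 3 : ℝ) : ℂ)⁻¹) * Complex.I_mul_I
  rw [h2] at h1
  rcases h1 with h1 | h1
  · exfalso
    have h4 : (0 : ℝ) < Real.log 2 + Real.pi / Real.sqrt 3 :=
      add_pos (Real.log_pos (by norm_num)) (div_pos Real.pi_pos (Real.sqrt_pos.mpr (by norm_num)))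
    have h5 : (Real.log 2 + Real.pi / Real.sqrt 3 : ℝ) = 0 := by exact_mod_cast h1
    exact h4.ne' h5
  · exact (transcendental_algebraMap_iff (A := ℂ) (RingHom.injective (algebraMap ℝ ℂ))).mp h1

end Fermat.Agent.Cor.Baker
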