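import Fermat.Agent.Corollaries.Baker.Extra

/-!
# Baker's theorem: the parameters
-/

set_option autoImplicit false

open Finset

namespace Fermat.Agent.Cor.Baker

/-- the logarithm of `bZ` -/
theorem log_bZ_le {N L k S S₀ X : ℕ} {c C ℓ B : ℝ} (hc : 1 ≤ c) (hC : 1 ≤ C) (hL : 1 ≤ L)
    (hk : 1 ≤ k) (hS₀ : 1 ≤ S₀) (hSS : S₀ ≤ S) (hX : 1 ≤ X) (hℓ : 1 ≤ ℓ)
    (h1 : Real.log (L * c) ≤ 4 * (N + 2) * ℓ)
    (h2 : Real.log (3 * X * S) ≤ B * ℓ) (h3 : 2 * (L : ℝ) * B ≤ k) :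
    Real.log (bZ N L k S X c (C ^ 2 * (L : ℝ) ^ (N + 2) * bA N L k S₀ c)) ≤
      (12 * (N + 2) ^ 2 + 2 * Real.log C + 1 + (N + 2) * Real.log c) * (k * ℓ) +
      (3 * (N + 2) * Real.log c + c) * (L * (3 * X * S)) := by
  have hc0 : 0 < c := by linarith
  have hC0 : 0 < C := by linarith
  have hLR : (1 : ℝ) ≤ L := by exact_mod_cast hL
  have hL0 : (0 : ℝ) < L := by linarith
  have hkR : (1 : ℝ) ≤ k := by exact_mod_cast hk
  have hS₀R : (1 : ℝ) ≤ S₀ := by exact_mod_cast hS₀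
  have hS₀0 : (0 : ℝ) < S₀ := by linarith
  have hSSR : (S₀ : ℝ) ≤ S := by exact_mod_cast hSS
  have hSR : (1 : ℝ) ≤ S := by linarith
  have hXR : (1 : ℝ) ≤ X := by exact_mod_cast hX
  have hLc0 : 0 < (L : ℝ) * c := by positivity
  have hNR : (0 : ℝ) ≤ N := Nat.cast_nonneg N
  set R : ℝ := 3 * X * S with hR
  have hR0 : 0 < R := by positivity
  have hRS : 3 * (S : ℝ) ≤ R := by
    rw [hR]
    nlinarith
  set lc := Real.log c with hlc
  have hlc0 : 0 ≤ lc := Real.log_nonneg hc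
  have hlC0 : 0 ≤ Real.log C := Real.log_nonneg hC
  have hlL0 : 0 ≤ Real.log L := Real.log_nonneg hLR
  have hlLc : Real.log L ≤ Real.log (L * c) :=
    Real.log_le_log hL0 (le_mul_of_one_le_right hL0.le hc)
  have hlS : Real.log S₀ ≤ Real.log R := Real.log_le_log hS₀0 (by linarith)
  have hA0 : 0 < bA N L k S₀ c := by
    unfold bA
    positivity
  have hlA : Real.log (bA N L k S₀ c) = ((N + 1) * k + (N + 1) * L * S₀) * lc +
      (((N + 1) * k) * Real.log (L * c) + L * Real.log S₀ + ((N + 1) * L * S₀) * lc) := by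
    unfold bA
    rw [Real.log_mul (by positivity) (by positivity), Real.log_mul (by positivity) (by positivity),
      Real.log_mul (by positivity) (by positivity), Real.log_pow, Real.log_pow, Real.log_pow,
      Real.log_pow]
    push_cast
    ring
  have hlP : Real.log (C ^ 2 * (L : ℝ) ^ (N + 2) * bA N L k S₀ c) =
      2 * Real.log C + (N + 2) * Real.log L + Real.log (bA N L k S₀ c) := by
    rw [Real.log_mul (by positivity) (by positivity), Real.log_mul (by positivity) (by positivity),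
      Real.log_pow, Real.log_pow]
    push_cast
    ring
  have hP0 : 0 < C ^ 2 * (L : ℝ) ^ (N + 2) * bA N L k S₀ c := by positivity
  have hlZ : ∀ P : ℝ, 0 < P → Real.log (bZ N L k S X c P) =
      (k + 2 * ((N + 1) * L * S)) * lc + ((N + 2) * Real.log L +
      (Real.log P + (k * Real.log (L * c) + L * Real.log R + c * (L * R)))) := by
    intro P hP
    unfold bZ
    rw [← hR, Real.log_mul (by positivity) (by positivity), Real.log_mul (by positivity)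
      (by positivity), Real.log_mul (by positivity) (by positivity), Real.log_mul (by positivity)
      (by positivity), Real.log_mul (by positivity) (by positivity), Real.log_pow, Real.log_pow,
      Real.log_pow, Real.log_pow, Real.log_exp]
    push_cast
    ring
  rw [hlZ _ hP0, hlP, hlA]
  have hkℓ : (1 : ℝ) ≤ k * ℓ := one_le_mul_of_one_le_of_one_le hkR hℓ
  have hkk : (k : ℝ) ≤ k * ℓ := le_mul_of_one_le_right (by linarith) hℓ
  have hℓk : ℓ ≤ k * ℓ := le_mul_of_one_le_left (by linarith) hkR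
  -- the single terms
  have t1 : (k : ℝ) * Real.log (L * c) ≤ 4 * (N + 2) * (k * ℓ) := by
    have := mul_le_mul_of_nonneg_left h1 (show (0 : ℝ) ≤ k by linarith)
    linarith
  have t2 : Real.log L ≤ 4 * (N + 2) * (k * ℓ) := by
    have h5 : 4 * (N + 2) * ℓ ≤ 4 * (N + 2) * (k * ℓ) :=
      mul_le_mul_of_nonneg_left hℓk (by positivity)
    linarith
  have t3 : (L : ℝ) * Real.log R ≤ k * ℓ / 2 := by
    have h5 := mul_le_mul_of_nonneg_left h2 hL0.le
    have h6 := mul_le_mul_of_nonneg_right h3 (show (0 : ℝ) ≤ ℓ by linarith)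
    linarith
  have t4 : (L : ℝ) * Real.log S₀ ≤ k * ℓ / 2 :=
    (mul_le_mul_of_nonneg_left hlS hL0.le).trans t3
  have t5 : (L : ℝ) * S ≤ L * R / 3 := by
    have := mul_le_mul_of_nonneg_left hRS hL0.le
    linarith
  have t6 : (L : ℝ) * S₀ ≤ L * R / 3 :=
    (mul_le_mul_of_nonneg_left hSSR hL0.le).trans t5
  have t7 : lc * k ≤ lc * (k * ℓ) := mul_le_mul_of_nonneg_left hkk hlc0
  have t8 : Real.log C ≤ Real.log C * (k * ℓ) := le_mul_of_one_le_right hlC0 hkℓ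
  have hLR0 : 0 ≤ (L : ℝ) * R := by positivity
  have u1 : (N + 2) * Real.log L ≤ (N + 2) * (4 * (N + 2) * (k * ℓ)) :=
    mul_le_mul_of_nonneg_left t2 (by positivity)
  have u2 : (N + 1) * ((k : ℝ) * Real.log (L * c)) ≤ (N + 1) * (4 * (N + 2) * (k * ℓ)) :=
    mul_le_mul_of_nonneg_left t1 (by positivity)
  have u3 : (N + 1) * lc * ((L : ℝ) * S) ≤ (N + 1) * lc * (L * R / 3) :=
    mul_le_mul_of_nonneg_left t5 (by positivity)
  have u4 : (N + 1) * lc * ((L : ℝ) * S₀) ≤ (N + 1) * lc * (L * R / 3) :=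
    mul_le_mul_of_nonneg_left t6 (by positivity)
  have u5 : (N + 2) * (lc * k) ≤ (N + 2) * (lc * (k * ℓ)) :=
    mul_le_mul_of_nonneg_left t7 (by positivity)
  have u6 : 0 ≤ lc * (L * R) := mul_nonneg hlc0 hLR0
  have u7 : 0 ≤ N * (lc * (L * R)) := mul_nonneg hNR u6
  linarith

/-- the choice of the parameters -/
theorem exists_param (N h : ℕ) {c C : ℝ} (hc : 1 ≤ c) (hC : 1 ≤ C) :
    ∃ X L S₀ k : ℕ, 2 ≤ X ∧ 1 ≤ L ∧ 1 ≤ S₀ ∧ 1 ≤ k ∧ L ^ (N + 2) = 2 * (k ^ (N + 1) * S₀) ∧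
      L ≤ k / 2 ^ (4 * (N + 2) * (N + 1) + 1) ∧
      L ^ (N + 2) ≤ S₀ * X ^ (4 * (N + 2) * (N + 1) + 1) ∧
      ∀ J < 4 * (N + 2) * (N + 1) + 1,
        bZ N L k (S₀ * X ^ (J + 1)) X c (C ^ 2 * (L : ℝ) ^ (N + 2) * bA N L k S₀ c) ^ h <
          (X : ℝ) ^ ((S₀ * X ^ J) * (k / 2 ^ (J + 1))) := by
  set Js : ℕ := 4 * (N + 2) * (N + 1) + 1 with hJs
  have hc0 : 0 < c := by linarith
  have hC0 : 0 < C := by linarith
  have hlc0 : 0 ≤ Real.log c := Real.log_nonneg hc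
  have hlC0 : 0 ≤ Real.log C := Real.log_nonneg hC
  have hNR : (0 : ℝ) ≤ N := Nat.cast_nonneg N
  have hhR : (0 : ℝ) ≤ h := Nat.cast_nonneg h
  set C₅ : ℝ := 12 * (N + 2) ^ 2 + 2 * Real.log C + 1 + (N + 2) * Real.log c with hC₅
  set C₆ : ℝ := 3 * (N + 2) * Real.log c + c with hC₆
  have hC₅0 : 0 ≤ C₅ := by positivity
  have hC₆0 : 0 ≤ C₆ := by positivity
  obtain ⟨σ, hσ⟩ := exists_nat_gt (4 * (h * C₅) + 1)
  have hσ0R : (1 : ℝ) ≤ σ := by
    have : 0 ≤ h * C₅ := by positivity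
    linarith
  have hσ1 : 1 ≤ σ := by exact_mod_cast hσ0R
  set S₀ : ℕ := 2 ^ (N + 1) * σ ^ (N + 2) with hS₀
  have hσS : σ ≤ S₀ := by
    calc σ = 1 * σ ^ 1 := by ring
      _ ≤ 2 ^ (N + 1) * σ ^ (N + 2) := Nat.mul_le_mul (Nat.one_le_two_pow)
        (Nat.pow_le_pow_right hσ1 (by omega))
  have hS₀1 : 1 ≤ S₀ := hσ1.trans hσS
  -- the size of `X`
  set B : ℝ := 3 + 3 * S₀ + 2 * σ * c + 4 * σ * (Js + 3) + 2 * σ * 2 ^ Js +
    12 * h * C₆ * σ * 2 ^ (Js + 1) with hB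
  obtain ⟨n, hn⟩ := pow_unbounded_of_one_lt B (show (1 : ℝ) < 2 by norm_num)
  set X : ℕ := 2 ^ (n + (N + 2)) with hX
  have hXB : B ≤ X := by
    have h1 : (2 : ℝ) ^ n ≤ 2 ^ (n + (N + 2)) := pow_le_pow_right₀ (by norm_num) (by omega)
    have h2 : ((X : ℕ) : ℝ) = 2 ^ (n + (N + 2)) := by
      rw [hX]
      push_cast
      rfl
    rw [h2]
    linarith
  have p1 : (0 : ℝ) ≤ 3 * S₀ := by positivity
  have p2 : (0 : ℝ) ≤ 2 * σ * c := by positivity
  have p3 : (0 : ℝ) ≤ 4 * σ * (Js + 3) := by positivity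
  have p4 : (0 : ℝ) ≤ 2 * σ * 2 ^ Js := by positivity
  have p5 : (0 : ℝ) ≤ 12 * h * C₆ * σ * 2 ^ (Js + 1) := by positivity
  have q0 : (3 : ℝ) ≤ X := by linarith
  have q1 : (3 : ℝ) * S₀ ≤ X := by linarith
  have q2 : 2 * (σ : ℝ) * c ≤ X := by linarith
  have q3 : 4 * (σ : ℝ) * (Js + 3) ≤ X := by linarith
  have q4 : 2 * (σ : ℝ) * 2 ^ Js ≤ X := by linarith
  have q5 : 12 * h * C₆ * σ * 2 ^ (Js + 1) ≤ X := by linarith
  have hX1 : (1 : ℝ) ≤ X := by linarith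
  have hX2 : 2 ≤ X := by
    have : (2 : ℝ) ≤ X := by linarith
    exact_mod_cast this
  have hX0 : (0 : ℝ) < X := by linarith
  set ℓ : ℝ := Real.log X with hℓ
  have hℓ1 : 1 ≤ ℓ := by
    rw [hℓ, Real.le_log_iff_exp_le hX0]
    have := Real.exp_one_lt_d9
    linarith
  set L : ℕ := 2 * σ * X ^ (4 * (N + 1)) with hL
  set k : ℕ := X ^ (4 * (N + 2)) with hk
  have hLR : (L : ℝ) = 2 * σ * (X : ℝ) ^ (4 * (N + 1)) := by
    rw [hL]
    push_cast
    ring
  have hkR : (k : ℝ) = (X : ℝ) ^ 4 * (X : ℝ) ^ (4 * (N + 1)) := by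
    rw [hk]
    push_cast
    rw [← pow_add]
    congr 1
    ring
  have hL1 : 1 ≤ L := by
    rw [hL]
    exact Nat.one_le_iff_ne_zero.mpr (by positivity)
  have hk1 : 1 ≤ k := Nat.one_le_iff_ne_zero.mpr (by positivity)
  have hk1R : (1 : ℝ) ≤ k := by exact_mod_cast hk1
  have hV0 : (0 : ℝ) < (X : ℝ) ^ (4 * (N + 1)) := by positivity
  have hX4 : (X : ℝ) ≤ (X : ℝ) ^ 4 := le_self_pow₀ hX1 (by norm_num)
  -- `2 ^ Js` divides `k`
  have hk2 : k = 2 ^ ((n + (N + 2)) * (4 * (N + 2))) := by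
    rw [hk, hX, ← pow_mul]
  have hJk : Js ≤ (n + (N + 2)) * (4 * (N + 2)) := by
    rw [hJs]
    nlinarith
  have hdiv : ∀ J ≤ Js, (((k / 2 ^ J : ℕ)) : ℝ) = k / 2 ^ J := by
    intro J hJ
    rw [Nat.cast_div_charZero (by rw [hk2]; exact pow_dvd_pow 2 (hJ.trans hJk))]
    push_cast
    rfl
  refine ⟨X, L, S₀, k, hX2, hL1, hS₀1, hk1, ?_, ?_, ?_, ?_⟩
  · rw [hL, hk, hS₀]
    ring_nf
  · have h1 : ((L : ℕ) : ℝ) ≤ ((k / 2 ^ Js : ℕ) : ℝ) := by
      rw [hdiv Js le_rfl, le_div_iff₀ (by positivity), hLR, hkR]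
      have h2 : 2 * (σ : ℝ) * 2 ^ Js ≤ (X : ℝ) ^ 4 := q4.trans hX4
      have := mul_le_mul_of_nonneg_right h2 hV0.le
      linarith
    exact_mod_cast h1
  · have h1 : L ^ (N + 2) = 2 * S₀ * X ^ (4 * (N + 2) * (N + 1)) := by
      rw [hL, hS₀]
      ring_nf
    rw [h1, hJs, pow_succ]
    have h2 : 2 * (S₀ * X ^ (4 * (N + 2) * (N + 1))) ≤ X * (S₀ * X ^ (4 * (N + 2) * (N + 1))) :=
      Nat.mul_le_mul_right _ hX2
    calc 2 * S₀ * X ^ (4 * (N + 2) * (N + 1)) = 2 * (S₀ * X ^ (4 * (N + 2) * (N + 1))) := by ring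
      _ ≤ X * (S₀ * X ^ (4 * (N + 2) * (N + 1))) := h2
      _ = S₀ * (X ^ (4 * (N + 2) * (N + 1)) * X) := by ring
  · intro J hJ
    have hJR : (J : ℝ) ≤ Js := by exact_mod_cast hJ.le
    set Y : ℝ := (X : ℝ) ^ J with hY
    have hY0 : 0 < Y := by positivity
    have hS₀R : (1 : ℝ) ≤ S₀ := by exact_mod_cast hS₀1
    have hSS : S₀ ≤ S₀ * X ^ (J + 1) := Nat.le_mul_of_pos_right _ (by positivity)
    have hlog := log_bZ_le (N := N) (L := L) (k := k) (S := S₀ * X ^ (J + 1)) (S₀ := S₀) (X := X)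
      (c := c) (C := C) (ℓ := ℓ) (B := (J : ℝ) + 3) hc hC hL1 hk1 hS₀1 hSS (by omega) hℓ1
      (by
        have h1 : (L : ℝ) * c ≤ (X : ℝ) ^ (4 * (N + 2)) := by
          have h2 : (X : ℝ) ^ (4 * (N + 2)) = (X : ℝ) ^ 4 * (X : ℝ) ^ (4 * (N + 1)) := by
            rw [← pow_add]
            congr 1
            ring
          rw [h2, hLR]
          have := mul_le_mul_of_nonneg_right (q2.trans hX4) hV0.le
          linarith
        have h3 := Real.log_le_log (by positivity) h1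
        rw [Real.log_pow] at h3
        push_cast at h3
        exact h3)
      (by
        have h1 : 3 * (X : ℝ) * ((S₀ * X ^ (J + 1) : ℕ) : ℝ) ≤ (X : ℝ) ^ (J + 3) := by
          push_cast
          have h2 : (X : ℝ) ^ (J + 3) = X * (X * (X : ℝ) ^ (J + 1)) := by ring
          rw [h2]
          have := mul_le_mul_of_nonneg_right q1 (show (0 : ℝ) ≤ X * (X : ℝ) ^ (J + 1) by positivity)
          linarith
        have h3 := Real.log_le_log (by positivity) h1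
        rw [Real.log_pow] at h3
        push_cast at h3
        push_cast
        exact h3)
      (by
        rw [hLR, hkR]
        have h1 : 4 * (σ : ℝ) * (J + 3) ≤ (X : ℝ) ^ 4 := by
          refine le_trans ?_ (q3.trans hX4)
          exact mul_le_mul_of_nonneg_left (by linarith) (by positivity)
        have := mul_le_mul_of_nonneg_right h1 hV0.le
        linarith)
    rw [← hC₅, ← hC₆] at hlog
    set Z := bZ N L k (S₀ * X ^ (J + 1)) X c (C ^ 2 * (L : ℝ) ^ (N + 2) * bA N L k S₀ c) with hZ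
    have hZ0 : 0 < Z := by
      rw [hZ]
      unfold bZ bA
      positivity
    rw [← Real.log_lt_log_iff (by positivity) (by positivity), Real.log_pow, Real.log_pow, ← hℓ]
    have hT : (((S₀ * X ^ J) * (k / 2 ^ (J + 1)) : ℕ) : ℝ) = S₀ * Y * (k / 2 ^ (J + 1)) := by
      rw [Nat.cast_mul, Nat.cast_mul, Nat.cast_pow, hdiv (J + 1) (by omega)]
    rw [hT]
    -- the comparison
    set Q : ℝ := 2 ^ (J + 1) with hQ
    have hQ0 : 0 < Q := by positivity
    have hYQ : Q ≤ 2 * Y := by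
      rw [hQ, hY, pow_succ, mul_comm]
      have : (2 : ℝ) ^ J ≤ (X : ℝ) ^ J := pow_le_pow_left₀ (by norm_num) (by linarith) J
      linarith
    have hQJ : Q ≤ 2 ^ (Js + 1) := pow_le_pow_right₀ (by norm_num) (by omega)
    have hkℓ : (0 : ℝ) < k * ℓ := by positivity
    have hσS' : (σ : ℝ) ≤ S₀ := by exact_mod_cast hσS
    -- (a)
    have a1 : h * C₅ * (k * ℓ) < S₀ * Y * (k * ℓ) / (2 * Q) := by
      rw [lt_div_iff₀ (by positivity)]
      have b1 : h * C₅ * (2 * Q) < S₀ * Y := by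
        have b2 : h * C₅ * (2 * Q) ≤ h * C₅ * (4 * Y) :=
          mul_le_mul_of_nonneg_left (by linarith) (by positivity)
        have b3 : (4 * (h * C₅)) * Y < S₀ * Y := mul_lt_mul_of_pos_right (by linarith) hY0
        linarith
      have := mul_lt_mul_of_pos_right b1 hkℓ
      linarith
    -- (b)
    have a2 : h * (C₆ * (L * (3 * X * ((S₀ * X ^ (J + 1) : ℕ) : ℝ)))) ≤
        S₀ * Y * (k * ℓ) / (2 * Q) := by
      have e1 : (L : ℝ) * (3 * X * ((S₀ * X ^ (J + 1) : ℕ) : ℝ)) =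
          6 * σ * S₀ * Y * ((X : ℝ) ^ 2 * (X : ℝ) ^ (4 * (N + 1))) := by
        push_cast
        rw [hLR, hY]
        ring
      rw [e1, le_div_iff₀ (by positivity), hkR]
      have b1 : 12 * h * C₆ * σ * Q ≤ (X : ℝ) ^ 2 * ℓ := by
        have b2 : 12 * h * C₆ * σ * Q ≤ 12 * h * C₆ * σ * 2 ^ (Js + 1) :=
          mul_le_mul_of_nonneg_left hQJ (by positivity)
        have b3 : (X : ℝ) ≤ (X : ℝ) ^ 2 * ℓ := by
          have b4 : (X : ℝ) ≤ (X : ℝ) ^ 2 := le_self_pow₀ hX1 (by norm_num)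
          exact b4.trans (le_mul_of_one_le_right (by positivity) hℓ1)
        linarith
      have b5 := mul_le_mul_of_nonneg_left b1
        (show (0 : ℝ) ≤ S₀ * Y * ((X : ℝ) ^ 2 * (X : ℝ) ^ (4 * (N + 1))) by positivity)
      have e2 : h * (C₆ * (6 * σ * S₀ * Y * ((X : ℝ) ^ 2 * (X : ℝ) ^ (4 * (N + 1))))) * (2 * Q) =
          S₀ * Y * ((X : ℝ) ^ 2 * (X : ℝ) ^ (4 * (N + 1))) * (12 * h * C₆ * σ * Q) := by ring
      have e3 : S₀ * Y * ((X : ℝ) ^ 4 * (X : ℝ) ^ (4 * (N + 1)) * ℓ) =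
          S₀ * Y * ((X : ℝ) ^ 2 * (X : ℝ) ^ (4 * (N + 1))) * ((X : ℝ) ^ 2 * ℓ) := by ring
      rw [e2, e3]
      exact b5
    have a3 : (h : ℝ) * Real.log Z ≤ h * C₅ * (k * ℓ) +
        h * (C₆ * (L * (3 * X * ((S₀ * X ^ (J + 1) : ℕ) : ℝ)))) := by
      have := mul_le_mul_of_nonneg_left hlog hhR
      linarith
    have a4 : S₀ * Y * (k / Q) * ℓ = S₀ * Y * (k * ℓ) / (2 * Q) + S₀ * Y * (k * ℓ) / (2 * Q) := by
      field_simp
      ring
    rw [a4]
    linarith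

end Fermat.Agent.Cor.Baker
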